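import Mathlib
import Fermat.Prelude.Def_FLTPrelim_Ramification

/-!
# Valuation subrings over a rational prime

Places of an algebraically closed algebraic extension of `ℚ` above a prime `q`.
-/

set_option autoImplicit false
set_option linter.style.haveILetI false

noncomputable section

namespace Fermat.Agent.Galois

open IsLocalRing
open scoped Pointwise

/-- The fixed algebraic closure of `ℚ`. -/
abbrev Qbar := AlgebraicClosure ℚ

/-- The absolute Galois group of `ℚ`. -/
abbrev GalQ := AlgebraicClosure ℚ ≃ₐ[ℚ] AlgebraicClosure ℚ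

variable {L : Type*} [Field L] {A B : ValuationSubring L} {q : ℕ}

theorem place_natCast_mem (A : ValuationSubring L) (n : ℕ) : (n : L) ∈ A := natCast_mem A n

theorem place_intCast_mem (A : ValuationSubring L) (n : ℤ) : (n : L) ∈ A := intCast_mem A n

theorem place_intCast_mem_nonunits_iff (hA : A.LiesOverPrime q) (hq : q.Prime) (n : ℤ) :
    (n : L) ∈ A.nonunits ↔ (q : ℤ) ∣ n := by
  have hqmem : ((q : ℤ) : L) ∈ A.nonunits := by rw [Int.cast_natCast]; exact hA
  rw [A.mem_nonunits_iff] at hqmem ⊢
  constructor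
  · intro hn
    by_contra h
    obtain ⟨a, b, hab⟩ := ((Nat.prime_iff_prime_int.mp hq).coprime_iff_not_dvd.mpr h)
    have h1 : A.valuation ((a * q + b * n : ℤ) : L) < 1 := by
      push_cast
      refine Valuation.map_add_lt _ ?_ ?_ <;> rw [map_mul]
      · exact (mul_le_of_le_one_left' ((A.valuation_le_one_iff _).mpr (place_intCast_mem A a))).trans_lt (by simpa using hqmem)
      · exact (mul_le_of_le_one_left' ((A.valuation_le_one_iff _).mpr (place_intCast_mem A b))).trans_lt (hn)
    rw [hab, Int.cast_one, map_one] at h1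
    exact lt_irrefl _ h1
  · rintro ⟨m, rfl⟩
    rw [Int.cast_mul, map_mul]
    exact (mul_le_of_le_one_right' ((A.valuation_le_one_iff _).mpr
      (place_intCast_mem A m))).trans_lt hqmem

theorem place_natCast_mem_nonunits_iff (hA : A.LiesOverPrime q) (hq : q.Prime) (n : ℕ) :
    (n : L) ∈ A.nonunits ↔ q ∣ n := by
  simpa [Int.natCast_dvd_natCast] using place_intCast_mem_nonunits_iff hA hq (n : ℤ)

theorem place_prime_unique {q' : ℕ} (hA : A.LiesOverPrime q) (hA' : A.LiesOverPrime q')
    (hq : q.Prime) (hq' : q'.Prime) : q = q' :=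
  (Nat.prime_dvd_prime_iff_eq hq hq').mp ((place_natCast_mem_nonunits_iff hA hq q').mp hA')

theorem place_mem_of_isIntegral (A : ValuationSubring L) {x : L} (hx : IsIntegral ℤ x) :
    x ∈ A := by
  obtain ⟨y, hy⟩ := IsIntegrallyClosed.isIntegral_iff.mp (hx.tower_top (A := A))
  exact hy ▸ y.2

theorem place_ne_top [CharZero L] (hA : A.LiesOverPrime q) (hq : q.Prime) : A ≠ ⊤ := by
  rintro rfl
  rcases ((⊤ : ValuationSubring L).mem_nonunits_iff_or).mp hA with h | h
  · exact hq.ne_zero (Nat.cast_eq_zero.mp h)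
  · exact h trivial

theorem place_ratCast_mem_iff [CharZero L] (hA : A.LiesOverPrime q) (hq : q.Prime) (r : ℚ) :
    (r : L) ∈ A ↔ ¬ q ∣ r.den := by
  rw [Rat.cast_def]
  constructor
  · intro hmem hdvd
    have hnd : ¬ (q : ℤ) ∣ r.num := by
      intro hn
      have := Nat.dvd_gcd (Int.natCast_dvd.mp hn) hdvd
      rw [r.reduced.gcd_eq_one] at this
      exact hq.ne_one (Nat.dvd_one.mp this)
    refine hnd ((place_intCast_mem_nonunits_iff hA hq _).mp ?_)
    have hd : (r.den : L) ∈ A.nonunits := (place_natCast_mem_nonunits_iff hA hq _).mpr hdvd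
    rw [A.mem_nonunits_iff] at hd ⊢
    have hne : (r.den : L) ≠ 0 := Nat.cast_ne_zero.mpr r.den_nz
    rw [show (r.num : L) = r.num / r.den * r.den from (div_mul_cancel₀ _ hne).symm, map_mul]
    exact (mul_le_of_le_one_left' ((A.valuation_le_one_iff _).mpr hmem)).trans_lt hd
  · intro h
    have hd : A.valuation (r.den : L) = 1 :=
      ((A.valuation_le_one_iff _).mpr (natCast_mem A _)).antisymm
        (not_lt.mp fun h' => h ((place_natCast_mem_nonunits_iff hA hq _).mp h'))
    rw [← A.valuation_le_one_iff, map_div₀, hd, div_one, A.valuation_le_one_iff]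
    exact intCast_mem A _

theorem place_charP_residueField (hA : A.LiesOverPrime q) (hq : q.Prime) :
    CharP (ResidueField A) q := by
  have h0 : ((q : ℕ) : ResidueField A) = 0 := by
    rw [← map_natCast (residue A) q, residue_eq_zero_iff]
    exact A.coe_mem_nonunits_iff.mp hA
  exact (CharP.charP_iff_prime_eq_zero hq).mpr h0

theorem exists_liesOverPrime [CharZero L] (hq : q.Prime) :
    ∃ A : ValuationSubring L, A.LiesOverPrime q := by
  let R : Subring L := (Int.castRingHom L).range
  let I : Ideal R := Ideal.span {(⟨(q : L), natCast_mem R q⟩ : R)}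
  have hI : I ≠ ⊤ := by
    rw [Ne, Ideal.eq_top_iff_one, Ideal.mem_span_singleton]
    rintro ⟨⟨y, n, rfl⟩, hy⟩
    have h1 := congrArg Subtype.val hy
    change (1 : L) = (q : L) * (n : L) at h1
    have h2 : (q : ℤ) * n = 1 := by exact_mod_cast h1.symm
    exact hq.ne_one (by simpa using Int.eq_one_of_mul_eq_one_right (Int.natCast_nonneg q) h2)
  obtain ⟨B, _, hB⟩ := Ideal.image_subset_nonunits_valuationSubring I hI
  exact ⟨B, hB ⟨_, Ideal.subset_span rfl, rfl⟩⟩

section Algebraic

variable [CharZero L] [Algebra.IsAlgebraic ℚ L]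

omit [CharZero L] [Algebra.IsAlgebraic ℚ L] in
theorem isIntegral_of_forall_mem_place {x : L} (h : ∀ V : ValuationSubring L, x ∈ V) :
    IsIntegral ℤ x := by
  have h1 : x ∈ (integralClosure (Subring.closure (∅ : Set L)) L).toSubring := by
    rw [← iInf_valuationSubring_superset, Subring.mem_iInf]
    exact fun V => h V.1
  haveI : Algebra.IsIntegral ℤ (Subring.closure (∅ : Set L)) := by
    refine ⟨fun z => ?_⟩
    obtain ⟨z, hz⟩ := z
    rw [Subring.closure_empty, Subring.mem_bot] at hz
    obtain ⟨n, rfl⟩ := hz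
    exact (isIntegral_algebraMap (R := ℤ) (A := Subring.closure (∅ : Set L)) (x := n))
  exact isIntegral_trans (R := ℤ) x h1

/-- An element of a place over `q` is a quotient of algebraic integers with unit denominator. -/
theorem place_exists_mul_eq (hA : A.LiesOverPrime q) (hq : q.Prime) {x : L} (hx : x ∈ A) :
    ∃ a b : L, IsIntegral ℤ a ∧ IsIntegral ℤ b ∧ b ∉ A.nonunits ∧ x * b = a := by
  classical
  obtain ⟨f, hf0, hfx⟩ := ((IsFractionRing.isAlgebraic_iff ℤ ℚ L).mpr
    (Algebra.IsAlgebraic.isAlgebraic (R := ℚ) x) : IsAlgebraic ℤ x)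
  set g := f.primPart with hg
  have hgx : Polynomial.aeval x g = 0 := by
    have := hfx
    rw [f.eq_C_content_mul_primPart, map_mul, Polynomial.aeval_C, mul_eq_zero] at this
    exact this.resolve_left (by simpa [Polynomial.content_eq_zero_iff] using hf0)
  let c : ℕ → L := fun k => Polynomial.aeval x (Polynomial.divX^[k] g)
  have hc : ∀ k, c k = x * c (k + 1) + (g.coeff k : L) := by
    intro k
    have hco : ∀ m j, (Polynomial.divX^[m] g).coeff j = g.coeff (j + m) := by
      intro m
      induction m with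
      | zero => simp
      | succ m ih =>
        intro j
        rw [Function.iterate_succ_apply', Polynomial.coeff_divX, ih]
        ring_nf
    change Polynomial.aeval x (Polynomial.divX^[k] g) = _
    conv_lhs => rw [← Polynomial.X_mul_divX_add (Polynomial.divX^[k] g)]
    rw [map_add, map_mul, Polynomial.aeval_X, Polynomial.aeval_C, hco, Nat.zero_add]
    simp only [c, Function.iterate_succ_apply', algebraMap_int_eq, eq_intCast]
  have hint : ∀ (V : ValuationSubring L) k, c k ∈ V ∧ x * c k ∈ V ∨ k = 0 := by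
    intro V k
    rcases V.mem_or_inv_mem x with hxV | hxV
    · left
      have hck : c k ∈ V := by
        change Polynomial.aeval x (Polynomial.divX^[k] g) ∈ V
        rw [Polynomial.aeval_eq_sum_range]
        exact sum_mem fun i _ => zsmul_mem (pow_mem hxV i) _
      exact ⟨hck, mul_mem hxV hck⟩
    · induction k with
      | zero => exact Or.inr rfl
      | succ k ih =>
        left
        have hk : c k ∈ V := by
          rcases ih with ih | rfl
          · exact ih.1
          · change Polynomial.aeval x g ∈ V; rw [hgx]; exact zero_mem V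
        have h1 : x * c (k + 1) ∈ V := by
          rw [show x * c (k + 1) = c k - (g.coeff k : L) by rw [hc k]; ring]
          exact sub_mem hk (intCast_mem V _)
        refine ⟨?_, h1⟩
        by_cases hx0 : x = 0
        · subst hx0
          change Polynomial.aeval (0 : L) (Polynomial.divX^[k + 1] g) ∈ V
          rw [Polynomial.aeval_eq_sum_range]
          exact sum_mem fun i _ => zsmul_mem (pow_mem (zero_mem V) i) _
        · simpa [← mul_assoc, inv_mul_cancel₀ hx0] using mul_mem hxV h1
  suffices ∃ k, k ≠ 0 ∧ c k ∉ A.nonunits by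
    obtain ⟨k, hk0, hk⟩ := this
    exact ⟨x * c k, c k,
      isIntegral_of_forall_mem_place fun V => ((hint V k).resolve_right hk0).2,
      isIntegral_of_forall_mem_place fun V => ((hint V k).resolve_right hk0).1, hk, rfl⟩
  by_contra hall
  push Not at hall
  have hall' : ∀ k, A.valuation (c k) < 1 := by
    intro k
    rcases eq_or_ne k 0 with rfl | hk
    · change A.valuation (Polynomial.aeval x g) < 1
      rw [hgx, map_zero]
      exact zero_lt_one
    · exact hall k hk
  have hdvd : ∀ k, (q : ℤ) ∣ g.coeff k := by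
    intro k
    rw [← place_intCast_mem_nonunits_iff hA hq, A.mem_nonunits_iff,
      show (g.coeff k : L) = c k - x * c (k + 1) by rw [hc k]; ring]
    refine Valuation.map_sub_lt _ (hall' k) ?_
    rw [map_mul]
    exact (mul_le_of_le_one_left' ((A.valuation_le_one_iff _).mpr hx)).trans_lt (hall' _)
  have hu : IsUnit (q : ℤ) :=
    f.isPrimitive_primPart _ (Polynomial.C_dvd_iff_dvd_coeff _ _ |>.mpr hdvd)
  exact hq.ne_one (by simpa [Int.isUnit_iff_natAbs_eq] using hu)

omit [CharZero L] [Algebra.IsAlgebraic ℚ L] in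
theorem place_residue_pow_eq_of_isIntegral (hA : A.LiesOverPrime q) (hq : q.Prime) {a : L}
    (ha : IsIntegral ℤ a) :
    ∃ k : ℕ, 0 < k ∧ (residue A ⟨a, place_mem_of_isIntegral A ha⟩) ^ q ^ k =
      residue A ⟨a, place_mem_of_isIntegral A ha⟩ := by
  haveI := Fact.mk hq
  haveI := place_charP_residueField hA hq
  letI : Algebra (ZMod q) (ResidueField A) := ZMod.algebra _ q
  set r := residue A ⟨a, place_mem_of_isIntegral A ha⟩
  obtain ⟨g, hg, hga⟩ := ha
  have hr : IsIntegral (ZMod q) r := by
    refine ⟨g.map (Int.castRingHom (ZMod q)), hg.map _, ?_⟩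
    rw [Polynomial.eval₂_map]
    have h0 : Polynomial.eval₂ (algebraMap ℤ A)
        (⟨a, place_mem_of_isIntegral A ⟨g, hg, hga⟩⟩ : A) g = 0 := by
      apply Subtype.val_injective
      change A.subtype _ = (0 : L)
      rw [Polynomial.hom_eval₂, RingHom.ext_int (A.subtype.comp (algebraMap ℤ A)) (algebraMap ℤ L)]
      exact hga
    have h1 := congrArg (residue A) h0
    rw [Polynomial.hom_eval₂, map_zero] at h1
    rw [RingHom.ext_int ((algebraMap (ZMod q) (ResidueField A)).comp (Int.castRingHom (ZMod q)))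
      ((residue A).comp (algebraMap ℤ A))]
    exact h1
  let E := IntermediateField.adjoin (ZMod q) ({r} : Set (ResidueField A))
  haveI : FiniteDimensional (ZMod q) E := IntermediateField.adjoin.finiteDimensional hr
  haveI : Finite E := Module.finite_of_finite (ZMod q)
  letI := Fintype.ofFinite E
  refine ⟨Module.finrank (ZMod q) E, Module.finrank_pos, ?_⟩
  have hcard : Fintype.card E = q ^ Module.finrank (ZMod q) E := by
    rw [Module.card_eq_pow_finrank (K := ZMod q), ZMod.card]
  have h := FiniteField.pow_card (⟨r, IntermediateField.mem_adjoin_simple_self (ZMod q) r⟩ : E)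
  rw [hcard] at h
  exact congrArg Subtype.val h

theorem place_exists_isIntegral_residue_eq (hA : A.LiesOverPrime q) (hq : q.Prime)
    (x : ResidueField A) :
    ∃ (a : L) (ha : IsIntegral ℤ a), residue A ⟨a, place_mem_of_isIntegral A ha⟩ = x := by
  obtain ⟨⟨x, hx⟩, rfl⟩ := residue_surjective x
  obtain ⟨a, b, ha, hb, hbA, hab⟩ := place_exists_mul_eq hA hq hx
  obtain ⟨k, hk, hbk⟩ := place_residue_pow_eq_of_isIntegral hA hq hb
  have h2 : 2 ≤ q ^ k := le_trans hq.two_le (Nat.le_self_pow (by omega) q)
  obtain ⟨m, hm⟩ := Nat.exists_eq_add_of_le h2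
  refine ⟨a * b ^ m, ha.mul (hb.pow m), ?_⟩
  have hb0 : residue A ⟨b, place_mem_of_isIntegral A hb⟩ ≠ 0 := fun h =>
    hbA (A.coe_mem_nonunits_iff.mpr ((residue_eq_zero_iff _).mp h))
  rw [hm, show 2 + m = m + 1 + 1 by omega, pow_succ] at hbk
  have h1 := mul_right_cancel₀ hb0 (hbk.trans (one_mul _).symm)
  have h3 : (⟨a * b ^ m, place_mem_of_isIntegral A (ha.mul (hb.pow m))⟩ : A) =
      ⟨x, hx⟩ * (⟨b, place_mem_of_isIntegral A hb⟩ : A) ^ (m + 1) := by
    ext
    change a * b ^ m = x * b ^ (m + 1)
    rw [← hab]; ring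
  rw [h3, map_mul, map_pow, h1, mul_one]

theorem place_exists_pow_eq (hA : A.LiesOverPrime q) (hq : q.Prime) (x : ResidueField A) :
    ∃ k : ℕ, 0 < k ∧ x ^ q ^ k = x := by
  obtain ⟨a, ha, rfl⟩ := place_exists_isIntegral_residue_eq hA hq x
  exact place_residue_pow_eq_of_isIntegral hA hq ha

theorem place_residueField_isAlgebraic (hA : A.LiesOverPrime q) (hq : q.Prime)
    [Algebra (ZMod q) (ResidueField A)] :
    Algebra.IsAlgebraic (ZMod q) (ResidueField A) := by
  haveI := Fact.mk hq
  refine ⟨fun x => ?_⟩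
  obtain ⟨k, hk, hx⟩ := place_exists_pow_eq hA hq x
  refine ⟨Polynomial.X ^ q ^ k - Polynomial.X, ?_, by simp [hx]⟩
  exact FiniteField.X_pow_card_pow_sub_X_ne_zero _ (by omega) hq.one_lt

theorem place_eq_of_forall_isIntegral (hA : A.LiesOverPrime q) (hB : B.LiesOverPrime q)
    (hq : q.Prime) (h : ∀ x : L, IsIntegral ℤ x → x ∈ A.nonunits → x ∈ B.nonunits) :
    A = B := by
  have key : ∀ C D : ValuationSubring L, C.LiesOverPrime q →
      (∀ x : L, IsIntegral ℤ x → x ∈ D.nonunits → x ∈ C.nonunits) → C ≤ D := by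
    intro C D hC hCD x hx
    obtain ⟨a, b, ha, hb, hbC, hab⟩ := place_exists_mul_eq hC hq hx
    have hbD : D.valuation b = 1 :=
      ((D.valuation_le_one_iff _).mpr (place_mem_of_isIntegral D hb)).antisymm
        (not_lt.mp fun h' => hbC (hCD b hb h'))
    have hxa : D.valuation x = D.valuation a := by rw [← hab, map_mul, hbD, mul_one]
    rw [← D.valuation_le_one_iff, hxa, D.valuation_le_one_iff]
    exact place_mem_of_isIntegral D ha
  have h' : ∀ x : L, IsIntegral ℤ x → x ∈ B.nonunits → x ∈ A.nonunits := by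
    intro x hx hxB
    by_contra hxA
    obtain ⟨k, hk, hxk⟩ := place_residue_pow_eq_of_isIntegral hA hq hx
    obtain ⟨m, hm⟩ : ∃ m, q ^ k = m + 1 + 1 := by
      have h2 : 2 ≤ q ^ k := le_trans hq.two_le (Nat.le_self_pow (by omega) q)
      exact ⟨q ^ k - 2, by omega⟩
    have hx0 : residue A ⟨x, place_mem_of_isIntegral A hx⟩ ≠ 0 := fun h0 =>
      hxA (A.coe_mem_nonunits_iff.mpr ((residue_eq_zero_iff _).mp h0))
    rw [hm, pow_succ] at hxk
    have h1 := mul_right_cancel₀ hx0 (hxk.trans (one_mul _).symm)
    rw [← map_pow, ← map_one (residue A), ← sub_eq_zero, ← map_sub, residue_eq_zero_iff] at h1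
    have h2 : x ^ (m + 1) - 1 ∈ B.nonunits :=
      h _ ((hx.pow _).sub isIntegral_one) (A.coe_mem_nonunits_iff.mpr h1)
    rw [B.mem_nonunits_iff] at h2 hxB
    have h3 : B.valuation (x ^ (m + 1)) < 1 := by
      rw [map_pow]; exact pow_lt_one' hxB (by omega)
    have h4 : B.valuation (x ^ (m + 1) - (x ^ (m + 1) - 1)) < 1 := Valuation.map_sub_lt _ h3 h2
    simp at h4
  exact le_antisymm (key A B hA h') (key B A hB h)

theorem place_eq_of_le (hA : A.LiesOverPrime q) (hB : B.LiesOverPrime q)
    (hq : q.Prime) (h : A ≤ B) : A = B :=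
  (place_eq_of_forall_isIntegral hB hA hq fun _ _ hx =>
    (ValuationSubring.nonunits_le_nonunits.mpr h) hx).symm

end Algebraic

section AlgClosed

variable [IsAlgClosed L]

theorem place_exists_root_sub_mem (A : ValuationSubring L) (f : Polynomial A) (hf : f.Monic)
    (a : A) (ha : f.eval a ∈ maximalIdeal A) (_hdeg : f.natDegree ≠ 0) :
    ∃ b : A, f.IsRoot b ∧ b - a ∈ maximalIdeal A := by
  have hsplit : (f.map A.subtype).Splits := IsAlgClosed.splits _
  have hfm : (f.map A.subtype).Monic := hf.map _
  have hprod := hsplit.eq_prod_roots_of_monic hfm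
  have hev : ((f.eval a : A) : L) =
      ((f.map A.subtype).roots.map fun r => (a : L) - r).prod := by
    change A.subtype (f.eval a) = _
    rw [← Polynomial.eval_map_apply]
    change (f.map A.subtype).eval (a : L) = _
    conv_lhs => rw [hprod]
    rw [Polynomial.eval_multiset_prod, Multiset.map_map]
    simp
  obtain ⟨r, hr, hra⟩ : ∃ r ∈ (f.map A.subtype).roots, (a : L) - r ∈ A.nonunits := by
    by_contra hno
    push Not at hno
    have hev' : A.valuation ((f.eval a : A) : L) < 1 := A.coe_mem_nonunits_iff.mpr ha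
    rw [hev, map_multiset_prod, Multiset.map_map] at hev'
    refine (not_le.mpr hev') (Multiset.one_le_prod_of_one_le ?_)
    intro v hv
    obtain ⟨r, hr, rfl⟩ := Multiset.mem_map.mp hv
    exact not_lt.mp (hno r hr)
  have hroot : (f.map A.subtype).IsRoot r := (Polynomial.mem_roots hfm.ne_zero).mp hr
  have hrint : IsIntegral A r := ⟨f, hf, by
    rw [← hroot.eq_zero, Polynomial.eval_map]; rfl⟩
  obtain ⟨b, hb⟩ := IsIntegrallyClosed.isIntegral_iff.mp hrint
  refine ⟨b, ?_, ?_⟩
  · apply Subtype.val_injective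
    change A.subtype (f.eval b) = 0
    rw [← Polynomial.eval_map_apply]
    exact (congrArg (fun z => (f.map A.subtype).eval z) hb).trans hroot
  · rw [← neg_sub, neg_mem_iff, ← A.coe_mem_nonunits_iff]
    simpa [← hb] using hra

theorem place_henselianLocalRing (A : ValuationSubring L) : HenselianLocalRing A where
  is_henselian f hf a ha hd := by
    refine place_exists_root_sub_mem A f hf a ha fun hdeg => ?_
    rw [hf.natDegree_eq_zero.mp hdeg] at ha
    exact (maximalIdeal.isMaximal A).ne_top
      ((Ideal.eq_top_iff_one _).mpr (by simp at ha))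

theorem place_residueField_isAlgClosed (A : ValuationSubring L) :
    IsAlgClosed (ResidueField A) := by
  refine IsAlgClosed.of_exists_root _ fun p hp hpirr => ?_
  have hlift : p ∈ Polynomial.lifts (residue A) := by
    rw [Polynomial.mem_lifts]
    exact Polynomial.map_surjective _ residue_surjective p
  obtain ⟨f, hfp, hfdeg, hfm⟩ := Polynomial.lifts_and_natDegree_eq_and_monic hlift hp
  have hsplit : (f.map A.subtype).Splits := IsAlgClosed.splits _
  have hne : (f.map A.subtype).roots ≠ 0 := by
    intro h0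
    have hcard := hsplit.natDegree_eq_card_roots
    rw [h0, Multiset.card_zero, hfm.natDegree_map, hfdeg] at hcard
    exact hpirr.natDegree_pos.ne' hcard
  obtain ⟨r, hr⟩ := Multiset.exists_mem_of_ne_zero hne
  have hroot : (f.map A.subtype).IsRoot r :=
    (Polynomial.mem_roots (hfm.map _).ne_zero).mp hr
  obtain ⟨b, hb⟩ := IsIntegrallyClosed.isIntegral_iff.mp
    (⟨f, hfm, by rw [← hroot.eq_zero, Polynomial.eval_map]; rfl⟩ : IsIntegral A r)
  refine ⟨residue A b, ?_⟩
  have hb0 : f.eval b = 0 := by
    apply Subtype.val_injective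
    change A.subtype (f.eval b) = 0
    rw [← Polynomial.eval_map_apply]
    exact (congrArg (fun z => (f.map A.subtype).eval z) hb).trans hroot
  rw [← hfp, Polynomial.eval_map_apply, hb0, map_zero]

end AlgClosed

end Fermat.Agent.Galois
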