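import Fermat.Agent.Galois.Places
import Fermat.Prelude.Def_EllipticCurve_FrobeniusTrace

/-!
# Decomposition, inertia and Frobenius elements in `Gal(ℚ̄/ℚ)`
-/

set_option autoImplicit false
set_option linter.style.haveILetI false

noncomputable section

namespace Fermat.Agent.Galois

open IsLocalRing
open scoped Pointwise NumberField

instance qbarIsAlgebraicGalois : Algebra.IsAlgebraic ℚ Qbar := AlgebraicClosure.isAlgebraic ℚ

instance qbarIsGaloisGalois : IsGalois ℚ Qbar :=
  have : Normal ℚ Qbar :=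
    @IsAlgClosure.normal ℚ Qbar _ _ _ ⟨inferInstance, qbarIsAlgebraicGalois⟩
  ⟨⟩

variable {A B : ValuationSubring Qbar} {q : ℕ} {σ σ' τ : GalQ}

theorem galQ_apply_inv (σ : GalQ) (x : Qbar) : σ (σ⁻¹ x) = x := by
  rw [← AlgEquiv.mul_apply, mul_inv_cancel, AlgEquiv.one_apply]

theorem galQ_inv_apply (σ : GalQ) (x : Qbar) : σ⁻¹ (σ x) = x := by
  rw [← AlgEquiv.mul_apply, inv_mul_cancel, AlgEquiv.one_apply]

theorem apply_mem_smul_iff (σ : GalQ) {x : Qbar} : σ x ∈ σ • A ↔ x ∈ A := by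
  rw [← AlgEquiv.smul_def, ValuationSubring.smul_mem_pointwise_smul_iff]

theorem mem_smul_iff_symm (σ : GalQ) {x : Qbar} : x ∈ σ • A ↔ σ⁻¹ x ∈ A := by
  rw [ValuationSubring.mem_pointwise_smul_iff_inv_smul_mem, AlgEquiv.smul_def]

theorem apply_mem_nonunits_smul_iff (σ : GalQ) {x : Qbar} :
    σ x ∈ (σ • A).nonunits ↔ x ∈ A.nonunits := by
  rw [ValuationSubring.mem_nonunits_iff_or, ValuationSubring.mem_nonunits_iff_or, ← map_inv₀,
    apply_mem_smul_iff, map_eq_zero_iff _ σ.injective]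

theorem nonunits_add_mem {x y : Qbar} (hx : x ∈ A.nonunits) (hy : y ∈ A.nonunits) :
    x + y ∈ A.nonunits := A.nonunits.add_mem hx hy

theorem mem_nonunits_congr {x y : Qbar} (h : x - y ∈ A.nonunits) :
    x ∈ A.nonunits ↔ y ∈ A.nonunits := by
  constructor
  · intro hx
    simpa using sub_mem hx h
  · intro hy
    simpa using add_mem h hy

theorem pow_mem_nonunits_iff {x : Qbar} {n : ℕ} (hn : n ≠ 0) :
    x ^ n ∈ A.nonunits ↔ x ∈ A.nonunits := by
  rw [A.mem_nonunits_iff, A.mem_nonunits_iff, map_pow, pow_lt_one_iff hn]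

theorem residue_eq_residue_iff {x y : A} :
    residue A x = residue A y ↔ (x : Qbar) - y ∈ A.nonunits := by
  rw [← sub_eq_zero, ← map_sub, residue_eq_zero_iff, ← A.coe_mem_nonunits_iff]
  rfl

theorem residue_smul_mk (hσ : σ ∈ A.decompositionSubgroup ℚ) (a : A) (hσa : σ a ∈ A) :
    (⟨σ, hσ⟩ : A.decompositionSubgroup ℚ) • residue A a = residue A ⟨σ a, hσa⟩ := rfl

theorem mem_decomposition_iff :
    σ ∈ A.decompositionSubgroup ℚ ↔ ∀ x, σ x ∈ A ↔ x ∈ A := by
  rw [MulAction.mem_stabilizer_iff]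
  constructor
  · intro h x
    conv_lhs => rw [← h]
    exact apply_mem_smul_iff σ
  · intro h
    ext x
    rw [mem_smul_iff_symm, ← h, ← AlgEquiv.mul_apply, mul_inv_cancel, AlgEquiv.one_apply]

theorem decomposition_apply_mem (hσ : σ ∈ A.decompositionSubgroup ℚ) {x : Qbar} (hx : x ∈ A) :
    σ x ∈ A := (mem_decomposition_iff.mp hσ x).mpr hx

theorem decomposition_apply_mem_nonunits_iff (hσ : σ ∈ A.decompositionSubgroup ℚ) {x : Qbar} :
    σ x ∈ A.nonunits ↔ x ∈ A.nonunits := by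
  conv_lhs => rw [← MulAction.mem_stabilizer_iff.mp hσ]
  exact apply_mem_nonunits_smul_iff σ

theorem liesOverPrime_smul (hA : A.LiesOverPrime q) (σ : GalQ) :
    (σ • A).LiesOverPrime q := by
  have h := (apply_mem_nonunits_smul_iff (A := A) σ).mpr hA
  rwa [map_natCast] at h

theorem decomposition_of_forall_apply_mem (hA : A.LiesOverPrime q) (hq : q.Prime)
    (h : ∀ x ∈ A, σ x ∈ A) : σ ∈ A.decompositionSubgroup ℚ := by
  refine MulAction.mem_stabilizer_iff.mpr (place_eq_of_le (liesOverPrime_smul hA σ) hA hq ?_)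
  intro x hx
  have := h _ ((mem_smul_iff_symm σ).mp hx)
  rwa [← AlgEquiv.mul_apply, mul_inv_cancel, AlgEquiv.one_apply] at this

theorem mem_inertia_iff :
    σ ∈ A.inertiaSubgroupIn ℚ ↔
      σ ∈ A.decompositionSubgroup ℚ ∧ ∀ x ∈ A, σ x - x ∈ A.nonunits := by
  constructor
  · rintro ⟨⟨g, hg⟩, hgI, rfl⟩
    refine ⟨hg, fun x hx => ?_⟩
    have h1 := RingEquiv.congr_fun (MonoidHom.mem_ker.mp hgI) (residue A ⟨x, hx⟩)
    change (⟨g, hg⟩ : A.decompositionSubgroup ℚ) • residue A ⟨x, hx⟩ = residue A ⟨x, hx⟩ at h1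
    rw [residue_smul_mk hg _ (decomposition_apply_mem hg hx), residue_eq_residue_iff] at h1
    exact h1
  · rintro ⟨hσ, h⟩
    refine ⟨⟨σ, hσ⟩, MonoidHom.mem_ker.mpr (RingEquiv.ext fun r => ?_), rfl⟩
    obtain ⟨⟨x, hx⟩, rfl⟩ := residue_surjective r
    change (⟨σ, hσ⟩ : A.decompositionSubgroup ℚ) • residue A ⟨x, hx⟩ = residue A ⟨x, hx⟩
    rw [residue_smul_mk hσ _ (decomposition_apply_mem hσ hx), residue_eq_residue_iff]
    exact h x hx

theorem inertia_le_decomposition (A : ValuationSubring Qbar) :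
    A.inertiaSubgroupIn ℚ ≤ A.decompositionSubgroup ℚ := fun _ h =>
  (mem_inertia_iff.mp h).1

theorem inertia_sub_mem_nonunits (hσ : σ ∈ A.inertiaSubgroupIn ℚ) {x : Qbar} (hx : x ∈ A) :
    σ x - x ∈ A.nonunits := (mem_inertia_iff.mp hσ).2 x hx

theorem isFrobeniusAt_iff :
    A.IsFrobeniusAt σ q ↔
      σ ∈ A.decompositionSubgroup ℚ ∧ ∀ x ∈ A, σ x - x ^ q ∈ A.nonunits := by
  constructor
  · rintro ⟨hσ, h⟩
    refine ⟨hσ, fun x hx => ?_⟩
    have h1 := h (residue A ⟨x, hx⟩)
    rw [residue_smul_mk hσ _ (decomposition_apply_mem hσ hx), ← map_pow,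
      residue_eq_residue_iff] at h1
    exact h1
  · rintro ⟨hσ, h⟩
    refine ⟨hσ, fun r => ?_⟩
    obtain ⟨⟨x, hx⟩, rfl⟩ := residue_surjective r
    rw [residue_smul_mk hσ _ (decomposition_apply_mem hσ hx), ← map_pow, residue_eq_residue_iff]
    exact h x hx

theorem isFrobeniusAt_sub_mem_nonunits (h : A.IsFrobeniusAt σ q) {x : Qbar} (hx : x ∈ A) :
    σ x - x ^ q ∈ A.nonunits := (isFrobeniusAt_iff.mp h).2 x hx

/-- The centre of a place on the algebraic integers. -/
def placeIdeal (A : ValuationSubring Qbar) : Ideal (integralClosure ℤ Qbar) :=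
  (maximalIdeal A).comap
    (({ toFun := fun b => ⟨b, place_mem_of_isIntegral A b.2⟩
        map_one' := rfl
        map_mul' := fun _ _ => rfl
        map_zero' := rfl
        map_add' := fun _ _ => rfl } : integralClosure ℤ Qbar →+* A))

theorem mem_placeIdeal_iff {b : integralClosure ℤ Qbar} :
    b ∈ placeIdeal A ↔ (b : Qbar) ∈ A.nonunits :=
  A.coe_mem_nonunits_iff.symm

instance placeIdeal_isPrime (A : ValuationSubring Qbar) : (placeIdeal A).IsPrime :=
  Ideal.IsPrime.comap _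

theorem placeIdeal_smul (σ : GalQ) (A : ValuationSubring Qbar) :
    placeIdeal (σ • A) = σ • placeIdeal A := by
  ext b
  rw [Ideal.mem_pointwise_smul_iff_inv_smul_mem, mem_placeIdeal_iff, mem_placeIdeal_iff,
    integralClosure.coe_smul, AlgEquiv.smul_def]
  have := apply_mem_nonunits_smul_iff (A := A) σ (x := σ⁻¹ (b : Qbar))
  rwa [galQ_apply_inv] at this

theorem eq_of_placeIdeal_eq (hA : A.LiesOverPrime q) (hB : B.LiesOverPrime q) (hq : q.Prime)
    (h : placeIdeal A = placeIdeal B) : A = B :=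
  place_eq_of_forall_isIntegral hA hB hq fun x hx hxA =>
    (mem_placeIdeal_iff (b := ⟨x, hx⟩)).mp (h ▸ mem_placeIdeal_iff.mpr hxA)

theorem mem_decomposition_iff_placeIdeal (hA : A.LiesOverPrime q) (hq : q.Prime) :
    σ ∈ A.decompositionSubgroup ℚ ↔ σ • placeIdeal A = placeIdeal A := by
  rw [MulAction.mem_stabilizer_iff, ← placeIdeal_smul]
  exact ⟨congrArg placeIdeal, eq_of_placeIdeal_eq (liesOverPrime_smul hA σ) hA hq⟩

/-- Membership in the decomposition group from compatibility on integral elements. -/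
theorem decomposition_of_forall_isIntegral (hA : A.LiesOverPrime q) (hq : q.Prime)
    (h : ∀ x, IsIntegral ℤ x → x ∈ A.nonunits → σ x ∈ A.nonunits) :
    σ ∈ A.decompositionSubgroup ℚ := by
  have h1 : σ⁻¹ • A = A := (place_eq_of_forall_isIntegral hA (liesOverPrime_smul hA σ⁻¹) hq
    fun x hx hxA => by
      have h2 := (apply_mem_nonunits_smul_iff (A := A) σ⁻¹).mpr (h x hx hxA)
      rwa [← AlgEquiv.mul_apply, inv_mul_cancel, AlgEquiv.one_apply] at h2).symm
  exact inv_mem_iff.mp (MulAction.mem_stabilizer_iff.mpr h1)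

theorem residue_action_eq_of_forall_isIntegral (hA : A.LiesOverPrime q) (hq : q.Prime)
    (hσ : σ ∈ A.decompositionSubgroup ℚ) (e : ResidueField A →+* ResidueField A)
    (h : ∀ (x : Qbar) (hx : IsIntegral ℤ x),
      residue A ⟨σ x, decomposition_apply_mem hσ (place_mem_of_isIntegral A hx)⟩ =
        e (residue A ⟨x, place_mem_of_isIntegral A hx⟩)) (r : ResidueField A) :
    (⟨σ, hσ⟩ : A.decompositionSubgroup ℚ) • r = e r := by
  obtain ⟨x, hx, rfl⟩ := place_exists_isIntegral_residue_eq hA hq r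
  rw [residue_smul_mk hσ _ (decomposition_apply_mem hσ (place_mem_of_isIntegral A hx))]
  exact h x hx

theorem mem_inertia_of_forall_isIntegral (hA : A.LiesOverPrime q) (hq : q.Prime)
    (h : ∀ x, IsIntegral ℤ x → σ x - x ∈ A.nonunits) : σ ∈ A.inertiaSubgroupIn ℚ := by
  have hσ : σ ∈ A.decompositionSubgroup ℚ := decomposition_of_forall_isIntegral hA hq
    fun x hx hxA => (mem_nonunits_congr (h x hx)).mpr hxA
  refine mem_inertia_iff.mpr ⟨hσ, fun x hx => ?_⟩
  have := residue_action_eq_of_forall_isIntegral hA hq hσ (RingHom.id _)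
    (fun y hy => residue_eq_residue_iff.mpr (h y hy)) (residue A ⟨x, hx⟩)
  rw [residue_smul_mk hσ _ (decomposition_apply_mem hσ hx), RingHom.id_apply,
    residue_eq_residue_iff] at this
  exact this

theorem isFrobeniusAt_of_forall_isIntegral (hA : A.LiesOverPrime q) (hq : q.Prime)
    (h : ∀ x, IsIntegral ℤ x → σ x - x ^ q ∈ A.nonunits) : A.IsFrobeniusAt σ q := by
  have hσ : σ ∈ A.decompositionSubgroup ℚ := decomposition_of_forall_isIntegral hA hq
    fun x hx hxA => (mem_nonunits_congr (h x hx)).mpr ((pow_mem_nonunits_iff hq.ne_zero).mpr hxA)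
  haveI := Fact.mk hq
  haveI := place_charP_residueField hA hq
  refine ⟨hσ, fun r => ?_⟩
  rw [residue_action_eq_of_forall_isIntegral hA hq hσ (frobenius _ q)
    (fun y hy => ?_) r, frobenius_def]
  rw [frobenius_def, ← map_pow]
  exact residue_eq_residue_iff.mpr (h y hy)

theorem isClosed_fixingSubgroup (F : IntermediateField ℚ Qbar) :
    IsClosed (F.fixingSubgroup : Set GalQ) := by
  exact InfiniteGalois.fixingSubgroup_isClosed F

theorem exists_fixing_stabilizer_surjective (F : IntermediateField ℚ Qbar)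
    (A : ValuationSubring Qbar) :
    (∀ B : ValuationSubring Qbar,
      (∀ x ∈ F, IsIntegral ℤ x → (x ∈ A.nonunits ↔ x ∈ B.nonunits)) →
      ∃ σ ∈ F.fixingSubgroup, σ • placeIdeal A = placeIdeal B) ∧
    (∀ e : (integralClosure ℤ Qbar ⧸ placeIdeal A) ≃+* (integralClosure ℤ Qbar ⧸ placeIdeal A),
      (∀ b : integralClosure ℤ Qbar, (b : Qbar) ∈ F →
        e (Ideal.Quotient.mk _ b) = Ideal.Quotient.mk _ b) →
      ∃ σ ∈ F.fixingSubgroup, σ • placeIdeal A = placeIdeal A ∧
        ∀ b, Ideal.Quotient.mk (placeIdeal A) (σ • b) = e (Ideal.Quotient.mk _ b)) := by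
  let B' := integralClosure ℤ Qbar
  let H := F.fixingSubgroup
  letI : TopologicalSpace B' := ⊥
  haveI : DiscreteTopology B' := ⟨rfl⟩
  haveI : ContinuousSMul GalQ B' := by
    rw [continuousSMul_iff_stabilizer_isOpen]
    intro b
    convert stabilizer_isOpen_of_isIntegral (K := ℚ) (b : Qbar) using 1
    ext g
    exact ⟨congrArg Subtype.val, fun h => Subtype.ext h⟩
  haveI : CompactSpace H :=
    isCompact_iff_compactSpace.mp ((isClosed_fixingSubgroup F).isCompact)
  let R := FixedPoints.subalgebra ℤ B' H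
  haveI : SMulCommClass H R B' := ⟨fun g r b => by
    simp only [Algebra.smul_def, smul_mul']
    congr 1
    exact r.2 g⟩
  haveI : Algebra.IsInvariant R B' H := ⟨fun b hb => ⟨⟨b, hb⟩, rfl⟩⟩
  have hR : ∀ b : R, ((b : B') : Qbar) ∈ F := by
    intro b
    rw [← InfiniteGalois.fixedField_fixingSubgroup F]
    exact fun g => congrArg Subtype.val (b.2 g)
  refine ⟨fun B hB => ?_, fun e he => ?_⟩
  · obtain ⟨g, hg⟩ := Algebra.IsInvariant.exists_smul_of_under_eq_of_profinite (A := R) (G := H)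
      (placeIdeal A) (placeIdeal B) (by
        ext b
        simp only [Ideal.mem_comap, mem_placeIdeal_iff]
        exact hB _ (hR b) (b : B').2)
    exact ⟨g, g.2, hg.symm⟩
  · let P : Ideal R := (placeIdeal A).under R
    haveI : (placeIdeal A).LiesOver P := ⟨rfl⟩
    let e' : (B' ⧸ placeIdeal A) ≃ₐ[R ⧸ P] (B' ⧸ placeIdeal A) :=
      { e with
        commutes' := fun r => by
          obtain ⟨b, rfl⟩ := Ideal.Quotient.mk_surjective r
          exact he (b : B') (hR b) }
    obtain ⟨⟨g, hg⟩, hge⟩ :=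
      Ideal.Quotient.stabilizerHom_surjective_of_profinite (G := H) P (placeIdeal A) e'
    exact ⟨g, g.2, hg, fun b => DFunLike.congr_fun hge (Ideal.Quotient.mk (placeIdeal A) b)⟩

/-- The Galois group permutes transitively the places over a prime. -/
theorem exists_smul_eq (hA : A.LiesOverPrime q) (hB : B.LiesOverPrime q) (hq : q.Prime) :
    ∃ σ : GalQ, σ • A = B := by
  obtain ⟨σ, -, hσ⟩ := (exists_fixing_stabilizer_surjective ⊥ A).1 B (by
    intro x hx hxi
    obtain ⟨r, rfl⟩ := IntermediateField.mem_bot.mp hx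
    obtain ⟨m, rfl⟩ := IsIntegrallyClosed.isIntegral_iff.mp
      ((isIntegral_algebraMap_iff (algebraMap ℚ Qbar).injective).mp hxi)
    simp only [algebraMap_int_eq, eq_intCast, map_intCast]
    rw [place_intCast_mem_nonunits_iff hA hq, place_intCast_mem_nonunits_iff hB hq])
  exact ⟨σ, eq_of_placeIdeal_eq (liesOverPrime_smul hA σ) hB hq (by rw [placeIdeal_smul, hσ])⟩

/-- Places with the same trace on an intermediate field are conjugate over that field. -/
theorem exists_fixing_smul_eq (F : IntermediateField ℚ Qbar) (hA : A.LiesOverPrime q)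
    (hB : B.LiesOverPrime q) (hq : q.Prime)
    (h : ∀ x ∈ F, IsIntegral ℤ x → (x ∈ A.nonunits ↔ x ∈ B.nonunits)) :
    ∃ σ ∈ F.fixingSubgroup, σ • A = B := by
  obtain ⟨σ, hσF, hσ⟩ := (exists_fixing_stabilizer_surjective F A).1 B h
  exact ⟨σ, hσF, eq_of_placeIdeal_eq (liesOverPrime_smul hA σ) hB hq (by rw [placeIdeal_smul, hσ])⟩

/-- The decomposition group over `F` surjects to the automorphisms of the residue field
fixing the residues of the integers of `F`. -/
theorem exists_fixing_residue_eq (F : IntermediateField ℚ Qbar) (hA : A.LiesOverPrime q)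
    (hq : q.Prime) (e : ResidueField A ≃+* ResidueField A)
    (he : ∀ (x : Qbar) (hx : IsIntegral ℤ x), x ∈ F →
      e (residue A ⟨x, place_mem_of_isIntegral A hx⟩) =
        residue A ⟨x, place_mem_of_isIntegral A hx⟩) :
    ∃ σ ∈ F.fixingSubgroup, ∃ hσ : σ ∈ A.decompositionSubgroup ℚ,
      ∀ x, (⟨σ, hσ⟩ : A.decompositionSubgroup ℚ) • x = e x := by
  let ψ₀ : integralClosure ℤ Qbar →+* A :=
    { toFun := fun b => ⟨b, place_mem_of_isIntegral A b.2⟩
      map_one' := rfl
      map_mul' := fun _ _ => rfl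
      map_zero' := rfl
      map_add' := fun _ _ => rfl }
  have hker : RingHom.ker ((residue A).comp ψ₀) = placeIdeal A := by
    ext b
    rw [RingHom.mem_ker, RingHom.comp_apply, residue_eq_zero_iff]
    rfl
  let Ψ : (integralClosure ℤ Qbar ⧸ placeIdeal A) ≃+* ResidueField A :=
    (Ideal.quotEquivOfEq hker.symm).trans (RingHom.quotientKerEquivOfSurjective (f := (residue A).comp ψ₀)
      fun r => by
        obtain ⟨x, hx, rfl⟩ := place_exists_isIntegral_residue_eq hA hq r
        exact ⟨⟨x, hx⟩, rfl⟩)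
  obtain ⟨σ, hσF, hσ, hact⟩ := (exists_fixing_stabilizer_surjective F A).2
    ((Ψ.trans e).trans Ψ.symm) (fun b hb => by
      simp only [RingEquiv.trans_apply, RingEquiv.symm_apply_eq]
      exact he b b.2 hb)
  have hσD : σ ∈ A.decompositionSubgroup ℚ := (mem_decomposition_iff_placeIdeal hA hq).mpr hσ
  refine ⟨σ, hσF, hσD, fun r => residue_action_eq_of_forall_isIntegral hA hq hσD e.toRingHom
    (fun x hx => ?_) r⟩
  have h1 := congrArg Ψ (hact ⟨x, hx⟩)
  simp only [RingEquiv.trans_apply, RingEquiv.apply_symm_apply] at h1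
  exact h1

/-- The decomposition group surjects to the automorphisms of the residue field. -/
theorem exists_residue_eq (hA : A.LiesOverPrime q) (hq : q.Prime)
    (e : ResidueField A ≃+* ResidueField A) :
    ∃ σ : GalQ, ∃ hσ : σ ∈ A.decompositionSubgroup ℚ,
      ∀ x, (⟨σ, hσ⟩ : A.decompositionSubgroup ℚ) • x = e x := by
  obtain ⟨σ, -, h⟩ := exists_fixing_residue_eq ⊥ hA hq e (by
    intro x hxi hx
    obtain ⟨r, rfl⟩ := IntermediateField.mem_bot.mp hx
    obtain ⟨m, rfl⟩ := IsIntegrallyClosed.isIntegral_iff.mp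
      ((isIntegral_algebraMap_iff (algebraMap ℚ Qbar).injective).mp hxi)
    have hm : residue A ⟨algebraMap ℚ Qbar (algebraMap ℤ ℚ m), place_mem_of_isIntegral A hxi⟩ =
        (m : ResidueField A) := by
      rw [← map_intCast (residue A) m]
      congr 1
    rw [hm, map_intCast])
  exact ⟨σ, h⟩

theorem place_frobenius_bijective (hA : A.LiesOverPrime q) (hq : q.Prime) :
    Function.Bijective fun x : ResidueField A => x ^ q := by
  haveI := Fact.mk hq
  haveI := place_charP_residueField hA hq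
  refine ⟨fun x y h => frobenius_inj (ResidueField A) q (by simpa [frobenius_def] using h),
    fun x => ?_⟩
  obtain ⟨k, hk, hx⟩ := place_exists_pow_eq hA hq x
  refine ⟨x ^ q ^ (k - 1), ?_⟩
  change (x ^ q ^ (k - 1)) ^ q = x
  rw [← pow_mul, ← pow_succ, Nat.sub_add_cancel hk, hx]

/-- The Frobenius automorphism of the residue field of a place. -/
def placeFrobeniusEquiv (hA : A.LiesOverPrime q) (hq : q.Prime) :
    ResidueField A ≃+* ResidueField A :=
  haveI := Fact.mk hq
  haveI := place_charP_residueField hA hq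
  RingEquiv.ofBijective (frobenius (ResidueField A) q) (place_frobenius_bijective hA hq)

theorem placeFrobeniusEquiv_apply (hA : A.LiesOverPrime q) (hq : q.Prime) (x : ResidueField A) :
    placeFrobeniusEquiv hA hq x = x ^ q := rfl

theorem exists_isFrobeniusAt (hA : A.LiesOverPrime q) (hq : q.Prime) :
    ∃ σ : GalQ, A.IsFrobeniusAt σ q := by
  obtain ⟨σ, hσ, h⟩ := exists_residue_eq hA hq (placeFrobeniusEquiv hA hq)
  exact ⟨σ, hσ, h⟩

theorem exists_place_isFrobeniusAt (hq : q.Prime) :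
    ∃ (A : ValuationSubring Qbar) (σ : GalQ), A.LiesOverPrime q ∧ A.IsFrobeniusAt σ q := by
  obtain ⟨A, hA⟩ := exists_liesOverPrime (L := Qbar) hq
  obtain ⟨σ, hσ⟩ := exists_isFrobeniusAt hA hq
  exact ⟨A, σ, hA, hσ⟩

theorem isFrobeniusAt_inv_mul_mem_inertia (h : A.IsFrobeniusAt σ q)
    (h' : A.IsFrobeniusAt σ' q) : σ⁻¹ * σ' ∈ A.inertiaSubgroupIn ℚ := by
  obtain ⟨hσ, h1⟩ := isFrobeniusAt_iff.mp h
  obtain ⟨hσ', h2⟩ := isFrobeniusAt_iff.mp h'
  have hD := mul_mem (inv_mem hσ) hσ'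
  refine mem_inertia_iff.mpr ⟨hD, fun x hx => ?_⟩
  rw [← decomposition_apply_mem_nonunits_iff hσ, map_sub, ← AlgEquiv.mul_apply,
    mul_inv_cancel_left]
  simpa using sub_mem (h2 x hx) (h1 x hx)

theorem isFrobeniusAt_mul_inertia (h : A.IsFrobeniusAt σ q)
    (hτ : τ ∈ A.inertiaSubgroupIn ℚ) : A.IsFrobeniusAt (σ * τ) q := by
  obtain ⟨hσ, h1⟩ := isFrobeniusAt_iff.mp h
  obtain ⟨hτD, h2⟩ := mem_inertia_iff.mp hτ
  refine isFrobeniusAt_iff.mpr ⟨mul_mem hσ hτD, fun x hx => ?_⟩
  have h3 := (decomposition_apply_mem_nonunits_iff hσ).mpr (h2 x hx)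
  rw [map_sub] at h3
  simpa [AlgEquiv.mul_apply] using add_mem h3 (h1 x hx)

theorem isFrobeniusAt_inertia_mul (h : A.IsFrobeniusAt σ q)
    (hτ : τ ∈ A.inertiaSubgroupIn ℚ) : A.IsFrobeniusAt (τ * σ) q := by
  obtain ⟨hσ, h1⟩ := isFrobeniusAt_iff.mp h
  obtain ⟨hτD, h2⟩ := mem_inertia_iff.mp hτ
  refine isFrobeniusAt_iff.mpr ⟨mul_mem hτD hσ, fun x hx => ?_⟩
  simpa [AlgEquiv.mul_apply] using add_mem (h2 _ (decomposition_apply_mem hσ hx)) (h1 x hx)

theorem isFrobeniusAt_pow_sub_mem (h : A.IsFrobeniusAt σ q) (_hA : A.LiesOverPrime q)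
    (_hq : q.Prime) (k : ℕ) {x : Qbar} (hx : x ∈ A) :
    (σ ^ k) x - x ^ q ^ k ∈ A.nonunits := by
  induction k generalizing x with
  | zero => simp
  | succ k ih =>
    obtain ⟨hσ, h1⟩ := isFrobeniusAt_iff.mp h
    rw [pow_succ', AlgEquiv.mul_apply, pow_succ' q]
    have h2 := h1 _ (decomposition_apply_mem (pow_mem hσ k) hx)
    have h3 := (residue_eq_residue_iff (x := ⟨(σ ^ k) x,
      decomposition_apply_mem (pow_mem hσ k) hx⟩) (y := (⟨x, hx⟩ : A) ^ q ^ k)).mpr (ih hx)
    rw [map_pow] at h3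
    have h4 := congrArg (· ^ q) h3
    simp only [← pow_mul, ← map_pow, residue_eq_residue_iff] at h4
    rw [mul_comm q]
    simpa using add_mem h2 h4

theorem mem_decomposition_smul_iff :
    σ ∈ (τ • A).decompositionSubgroup ℚ ↔ τ⁻¹ * σ * τ ∈ A.decompositionSubgroup ℚ := by
  simp only [MulAction.mem_stabilizer_iff, mul_smul, inv_smul_eq_iff]

theorem mem_inertia_smul_iff :
    σ ∈ (τ • A).inertiaSubgroupIn ℚ ↔ τ⁻¹ * σ * τ ∈ A.inertiaSubgroupIn ℚ := by
  rw [mem_inertia_iff, mem_inertia_iff, mem_decomposition_smul_iff]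
  refine and_congr_right fun _ => ⟨fun h x hx => ?_, fun h x hx => ?_⟩
  · have h1 := h (τ x) ((apply_mem_smul_iff τ).mpr hx)
    rw [show σ (τ x) - τ x = τ ((τ⁻¹ * σ * τ) x - x) by
      simp only [AlgEquiv.mul_apply, map_sub, galQ_apply_inv]] at h1
    exact (apply_mem_nonunits_smul_iff τ).mp h1
  · have h1 := (apply_mem_nonunits_smul_iff τ).mpr (h _ ((mem_smul_iff_symm τ).mp hx))
    simpa only [AlgEquiv.mul_apply, map_sub, galQ_apply_inv] using h1

theorem inertia_normal_in_decomposition (hσ : σ ∈ A.inertiaSubgroupIn ℚ)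
    (hτ : τ ∈ A.decompositionSubgroup ℚ) : τ * σ * τ⁻¹ ∈ A.inertiaSubgroupIn ℚ := by
  rw [← MulAction.mem_stabilizer_iff.mp hτ, mem_inertia_smul_iff]
  simpa [mul_assoc] using hσ

theorem isFrobeniusAt_conj (h : A.IsFrobeniusAt σ q) (τ : GalQ) :
    (τ • A).IsFrobeniusAt (τ * σ * τ⁻¹) q := by
  obtain ⟨hσ, h1⟩ := isFrobeniusAt_iff.mp h
  refine isFrobeniusAt_iff.mpr ⟨?_, fun x hx => ?_⟩
  · rw [mem_decomposition_smul_iff]; simpa [mul_assoc] using hσ
  · have h2 := (apply_mem_nonunits_smul_iff τ).mpr (h1 _ ((mem_smul_iff_symm τ).mp hx))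
    simpa only [AlgEquiv.mul_apply, map_sub, map_pow, galQ_apply_inv] using h2

theorem isClosed_decomposition (A : ValuationSubring Qbar) :
    IsClosed (A.decompositionSubgroup ℚ : Set GalQ) := by
  letI : TopologicalSpace Qbar := ⊥
  haveI : DiscreteTopology Qbar := ⟨rfl⟩
  haveI : ContinuousSMul GalQ Qbar :=
    continuousSMul_iff_stabilizer_isOpen.mpr fun x => stabilizer_isOpen_of_isIntegral x
  have hc : ∀ x : Qbar, Continuous fun σ : GalQ => σ x := fun x =>
    (continuous_id.smul continuous_const : Continuous fun σ : GalQ => σ • x)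
  have : (A.decompositionSubgroup ℚ : Set GalQ) =
      ⋂ x : Qbar, (fun σ : GalQ => σ x) ⁻¹' {y | y ∈ A ↔ x ∈ A} := by
    ext σ
    rw [Set.mem_iInter, SetLike.mem_coe, mem_decomposition_iff]
    rfl
  rw [this]
  exact isClosed_iInter fun x => (isClosed_discrete _).preimage (hc x)

theorem isClosed_inertia (A : ValuationSubring Qbar) :
    IsClosed (A.inertiaSubgroupIn ℚ : Set GalQ) := by
  letI : TopologicalSpace Qbar := ⊥
  haveI : DiscreteTopology Qbar := ⟨rfl⟩
  haveI : ContinuousSMul GalQ Qbar :=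
    continuousSMul_iff_stabilizer_isOpen.mpr fun x => stabilizer_isOpen_of_isIntegral x
  have hc : ∀ x : Qbar, Continuous fun σ : GalQ => σ x := fun x =>
    (continuous_id.smul continuous_const : Continuous fun σ : GalQ => σ • x)
  have : (A.inertiaSubgroupIn ℚ : Set GalQ) =
      (A.decompositionSubgroup ℚ : Set GalQ) ∩
        ⋂ x : A, (fun σ : GalQ => σ (x : Qbar)) ⁻¹' {y | y - x ∈ A.nonunits} := by
    ext σ
    simp [mem_inertia_iff]
  rw [this]
  exact (isClosed_decomposition A).inter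
    (isClosed_iInter fun x => (isClosed_discrete _).preimage (hc x))

theorem exists_decomposition_eq_on (F : IntermediateField ℚ Qbar) (hA : A.LiesOverPrime q)
    (hq : q.Prime) (h : ∀ x ∈ F, IsIntegral ℤ x → (σ x ∈ A.nonunits ↔ x ∈ A.nonunits)) :
    ∃ σ₁ ∈ A.decompositionSubgroup ℚ, ∀ x ∈ F, σ₁ x = σ x := by
  obtain ⟨τ, hτ, hτA⟩ := exists_fixing_smul_eq (B := σ⁻¹ • A) F hA (liesOverPrime_smul hA _) hq
    (fun x hx hxi => by
      rw [← h x hx hxi, ← apply_mem_nonunits_smul_iff σ⁻¹, ← AlgEquiv.mul_apply, inv_mul_cancel,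
        AlgEquiv.one_apply])
  refine ⟨σ * τ, ?_, fun x hx => ?_⟩
  · rw [MulAction.mem_stabilizer_iff, mul_smul, hτA, smul_inv_smul]
  · rw [AlgEquiv.mul_apply, (IntermediateField.mem_fixingSubgroup_iff _ _).mp hτ x hx]

/-- An automorphism of a level acting trivially modulo `A` comes from inertia. -/
theorem exists_inertia_eq_on (F : IntermediateField ℚ Qbar)
    (hA : A.LiesOverPrime q) (hq : q.Prime)
    (h : ∀ x ∈ F, IsIntegral ℤ x → σ x - x ∈ A.nonunits) :
    ∃ i ∈ A.inertiaSubgroupIn ℚ, ∀ x ∈ F, i x = σ x := by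
  obtain ⟨σ₁, hσ₁, heq⟩ := exists_decomposition_eq_on (σ := σ) F hA hq
    fun x hx hxi => mem_nonunits_congr (h x hx hxi)
  let e := MulSemiringAction.toRingEquiv (A.decompositionSubgroup ℚ) (ResidueField A)
    (⟨σ₁, hσ₁⟩ : A.decompositionSubgroup ℚ)
  obtain ⟨ρ, hρF, hρ, hρe⟩ := exists_fixing_residue_eq F hA hq e (fun x hxi hx => by
    simp only [e, MulSemiringAction.toRingEquiv_apply_apply]
    rw [residue_smul_mk hσ₁ _ (decomposition_apply_mem hσ₁ (place_mem_of_isIntegral A hxi)),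
      residue_eq_residue_iff]
    simpa [heq x hx] using h x hx hxi)
  refine ⟨σ₁ * ρ⁻¹, mem_inertia_iff.mpr ⟨mul_mem hσ₁ (inv_mem hρ), fun x hx => ?_⟩, fun x hx => ?_⟩
  · have hy := decomposition_apply_mem (inv_mem hρ) hx
    have h1 := hρe (residue A ⟨ρ⁻¹ x, hy⟩)
    simp only [e, MulSemiringAction.toRingEquiv_apply_apply] at h1
    rw [residue_smul_mk hρ _ (decomposition_apply_mem hρ hy),
      residue_smul_mk hσ₁ _ (decomposition_apply_mem hσ₁ hy), eq_comm, residue_eq_residue_iff] at h1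
    rw [AlgEquiv.mul_apply]
    simpa only [galQ_apply_inv] using h1
  · rw [AlgEquiv.mul_apply,
      (IntermediateField.mem_fixingSubgroup_iff _ _).mp (inv_mem hρF) x hx, heq x hx]

/-- An automorphism of a level acting as `x ↦ x^q` modulo `A` comes from a Frobenius. -/
theorem exists_isFrobeniusAt_eq_on (F : IntermediateField ℚ Qbar)
    (hA : A.LiesOverPrime q) (hq : q.Prime)
    (h : ∀ x ∈ F, IsIntegral ℤ x → σ x - x ^ q ∈ A.nonunits) :
    ∃ φ : GalQ, A.IsFrobeniusAt φ q ∧ ∀ x ∈ F, φ x = σ x := by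
  obtain ⟨σ₁, hσ₁, heq⟩ := exists_decomposition_eq_on (σ := σ) F hA hq
    fun x hx hxi => (mem_nonunits_congr (h x hx hxi)).trans (pow_mem_nonunits_iff hq.ne_zero)
  let e₁ := MulSemiringAction.toRingEquiv (A.decompositionSubgroup ℚ) (ResidueField A)
    (⟨σ₁, hσ₁⟩ : A.decompositionSubgroup ℚ)
  obtain ⟨ρ, hρF, hρ, hρe⟩ := exists_fixing_residue_eq F hA hq
    ((placeFrobeniusEquiv hA hq).trans e₁.symm) (fun x hxi hx => by
      rw [RingEquiv.trans_apply, RingEquiv.symm_apply_eq, placeFrobeniusEquiv_apply, ← map_pow]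
      simp only [e₁, MulSemiringAction.toRingEquiv_apply_apply]
      rw [residue_smul_mk hσ₁ _ (decomposition_apply_mem hσ₁ (place_mem_of_isIntegral A hxi)),
        eq_comm, residue_eq_residue_iff]
      simpa [heq x hx] using h x hx hxi)
  refine ⟨σ₁ * ρ, ⟨mul_mem hσ₁ hρ, fun r => ?_⟩, fun x hx => ?_⟩
  · change ((⟨σ₁, hσ₁⟩ : A.decompositionSubgroup ℚ) * ⟨ρ, hρ⟩) • r = r ^ q
    rw [mul_smul, hρe r]
    exact e₁.apply_symm_apply _
  · rw [AlgEquiv.mul_apply, (IntermediateField.mem_fixingSubgroup_iff _ _).mp hρF x hx, heq x hx]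

/-- On a finite level the decomposition group is generated by Frobenius and inertia. -/
theorem exists_pow_inertia_fixing (hA : A.LiesOverPrime q) (hq : q.Prime)
    (F : IntermediateField ℚ Qbar) [FiniteDimensional ℚ F]
    (hφ : A.IsFrobeniusAt σ' q) (hσ : σ ∈ A.decompositionSubgroup ℚ) :
    ∃ (k : ℕ) (i : GalQ), i ∈ A.inertiaSubgroupIn ℚ ∧
      (σ' ^ k * i)⁻¹ * σ ∈ F.fixingSubgroup := by
  classical
  haveI := Fact.mk hq
  haveI := place_charP_residueField hA hq
  letI : Algebra (ZMod q) (ResidueField A) := ZMod.algebra _ q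
  haveI : NumberField F := NumberField.of_module_finite ℚ F
  have hint : ∀ x : 𝓞 F, IsIntegral ℤ (((x : F)) : Qbar) := fun x =>
    x.isIntegral_coe.map (IsScalarTower.toAlgHom ℤ F Qbar)
  let ψ₀ : 𝓞 F →+* A :=
    { toFun := fun x => ⟨((x : F) : Qbar), place_mem_of_isIntegral A (hint x)⟩
      map_one' := Subtype.ext (by simp)
      map_mul' := fun x y => Subtype.ext (by simp)
      map_zero' := Subtype.ext (by simp)
      map_add' := fun x y => Subtype.ext (by simp) }
  obtain ⟨gens, hgens⟩ := (inferInstance : Module.Finite ℤ (𝓞 F)).fg_top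
  let ψ := (residue A).comp ψ₀
  let S : Finset (ResidueField A) := gens.image ψ
  let E := IntermediateField.adjoin (ZMod q) (S : Set (ResidueField A))
  haveI := place_residueField_isAlgebraic hA hq
  haveI : FiniteDimensional (ZMod q) E :=
    IntermediateField.finiteDimensional_adjoin fun x _ => Algebra.IsIntegral.isIntegral x
  haveI : Finite E := Module.finite_of_finite (ZMod q)
  have hψE : ∀ x, ψ x ∈ E := by
    intro x
    have hx : x ∈ Submodule.span ℤ (gens : Set (𝓞 F)) := hgens ▸ Submodule.mem_top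
    induction hx using Submodule.span_induction with
    | mem y hy => exact IntermediateField.subset_adjoin _ _ (Finset.mem_image_of_mem ψ hy)
    | zero => rw [map_zero]; exact zero_mem _
    | add y z _ _ hy hz => rw [map_add]; exact add_mem hy hz
    | smul n y _ hy => rw [map_zsmul]; exact zsmul_mem hy n
  let e : Gal(ResidueField A/ZMod q) :=
    { MulSemiringAction.toRingEquiv _ (ResidueField A)
        (⟨σ, hσ⟩ : A.decompositionSubgroup ℚ) with
      commutes' := fun r => RingHom.congr_fun (Subsingleton.elim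
        ((MulSemiringAction.toRingEquiv _ (ResidueField A)
          (⟨σ, hσ⟩ : A.decompositionSubgroup ℚ)).toRingHom.comp (algebraMap (ZMod q) _))
        (algebraMap (ZMod q) _)) r }
  haveI : IsGalois (ZMod q) E := inferInstance
  obtain ⟨⟨k, _⟩, hk⟩ :=
    (FiniteField.bijective_frobeniusAlgEquivOfAlgebraic_pow (ZMod q) E).2 (e.restrictNormal E)
  have key : ∀ x ∈ F, IsIntegral ℤ x →
      ((σ' ^ k)⁻¹ * σ) x - x ∈ A.nonunits := by
    intro x hx hxi
    have hxA := place_mem_of_isIntegral A hxi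
    let y : 𝓞 F := ⟨⟨x, hx⟩,
      (isIntegral_algHom_iff (IsScalarTower.toAlgHom ℤ F Qbar) Subtype.val_injective).mp hxi⟩
    have hy : ψ y = residue A ⟨x, hxA⟩ := rfl
    have h1 : e (ψ y) = ψ y ^ q ^ k := by
      have h2 := AlgEquiv.restrictNormal_commutes e E ⟨ψ y, hψE y⟩
      rw [← hk, AlgEquiv.coe_pow, FiniteField.coe_frobeniusAlgEquivOfAlgebraic_iterate,
        ZMod.card] at h2
      exact h2.symm
    change (⟨σ, hσ⟩ : A.decompositionSubgroup ℚ) • ψ y = _ at h1
    rw [hy, residue_smul_mk hσ _ (decomposition_apply_mem hσ hxA), ← map_pow,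
      residue_eq_residue_iff] at h1
    have hφD := (isFrobeniusAt_iff.mp hφ).1
    rw [← decomposition_apply_mem_nonunits_iff (pow_mem hφD k), map_sub, ← AlgEquiv.mul_apply,
      mul_inv_cancel_left]
    simpa using sub_mem h1 (isFrobeniusAt_pow_sub_mem hφ hA hq k hxA)
  obtain ⟨i, hi, hix⟩ := exists_inertia_eq_on F hA hq key
  refine ⟨k, i, hi, (IntermediateField.mem_fixingSubgroup_iff _ _).mpr fun x hx => ?_⟩
  rw [mul_inv_rev, mul_assoc, AlgEquiv.mul_apply, ← hix x hx, ← AlgEquiv.mul_apply, inv_mul_cancel,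
    AlgEquiv.one_apply]

end Fermat.Agent.Galois
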