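import Fermat.Agent.Galois.Decomposition

/-!
# Frobenius and inertia on roots of unity
-/

set_option autoImplicit false
set_option linter.style.haveILetI false

noncomputable section

namespace Fermat.Agent.Galois

open IsLocalRing
open scoped Pointwise

variable {A : ValuationSubring Qbar} {q : ℕ} {σ : GalQ}

theorem rootOfUnity_mem_place (A : ValuationSubring Qbar) {m : ℕ} (hm : m ≠ 0) {ζ : Qbar}
    (hζ : ζ ^ m = 1) : ζ ∈ A :=
  place_mem_of_isIntegral A (IsIntegral.of_pow (Nat.pos_of_ne_zero hm) (by rw [hζ]; exact isIntegral_one))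

/-- Reduction is injective on roots of unity of order prime to the residue characteristic. -/
theorem rootOfUnity_eq_of_sub_mem_nonunits (hA : A.LiesOverPrime q) (hq : q.Prime) {m : ℕ}
    (hm : ¬ q ∣ m) {ζ η : Qbar} (hζ : ζ ^ m = 1) (hη : η ^ m = 1)
    (h : ζ - η ∈ A.nonunits) : ζ = η := by
  have hm0 : m ≠ 0 := fun h0 => hm (h0 ▸ dvd_zero q)
  have hη0 : η ≠ 0 := fun h0 => by simp [h0, zero_pow hm0] at hη
  have hω : (ζ / η) ^ m = 1 := by rw [div_pow, hζ, hη, div_one]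
  by_contra hne
  have hω1 : ζ / η ≠ 1 := fun h1 => hne ((div_eq_one_iff_eq hη0).mp h1)
  have hsum : ∑ i ∈ Finset.range m, (ζ / η) ^ i = 0 := by
    rw [geom_sum_eq hω1, hω, sub_self, zero_div]
  have hηA := rootOfUnity_mem_place A hm0 hη
  have hωA := rootOfUnity_mem_place A hm0 hω
  have hres : residue A ⟨ζ / η, hωA⟩ = 1 := by
    rw [← map_one (residue A), residue_eq_residue_iff]
    rw [A.mem_nonunits_iff] at h ⊢
    have hη1 : A.valuation η = 1 := (pow_eq_one_iff.mp (by rw [← map_pow, hη, map_one])).resolve_right hm0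
    change A.valuation (ζ / η - 1) < 1
    rw [show ζ / η - 1 = (ζ - η) / η by field_simp, map_div₀, hη1, div_one]
    exact h
  have hsumA : residue A (∑ i ∈ Finset.range m, (⟨ζ / η, hωA⟩ : A) ^ i) = 0 := by
    rw [show (∑ i ∈ Finset.range m, (⟨ζ / η, hωA⟩ : A) ^ i) = 0 from Subtype.ext (by
      push_cast; exact hsum), map_zero]
  rw [map_sum] at hsumA
  simp only [map_pow, hres, one_pow, Finset.sum_const, Finset.card_range, nsmul_eq_mul,
    mul_one] at hsumA
  haveI := place_charP_residueField hA hq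
  exact hm ((CharP.cast_eq_zero_iff (ResidueField A) q m).mp hsumA)

theorem isFrobeniusAt_apply_rootOfUnity (hA : A.LiesOverPrime q) (hq : q.Prime)
    (h : A.IsFrobeniusAt σ q) {m : ℕ} (hm : ¬ q ∣ m) {ζ : Qbar} (hζ : ζ ^ m = 1) :
    σ ζ = ζ ^ q := by
  have hm0 : m ≠ 0 := fun h0 => hm (h0 ▸ dvd_zero q)
  refine rootOfUnity_eq_of_sub_mem_nonunits hA hq hm ?_ ?_
    (isFrobeniusAt_sub_mem_nonunits h (rootOfUnity_mem_place A hm0 hζ))
  · rw [← map_pow, hζ, map_one]
  · rw [← pow_mul, mul_comm, pow_mul, hζ, one_pow]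

theorem inertia_apply_rootOfUnity (hA : A.LiesOverPrime q) (hq : q.Prime)
    (h : σ ∈ A.inertiaSubgroupIn ℚ) {m : ℕ} (hm : ¬ q ∣ m) {ζ : Qbar} (hζ : ζ ^ m = 1) :
    σ ζ = ζ := by
  have hm0 : m ≠ 0 := fun h0 => hm (h0 ▸ dvd_zero q)
  refine rootOfUnity_eq_of_sub_mem_nonunits hA hq hm ?_ hζ
    (inertia_sub_mem_nonunits h (rootOfUnity_mem_place A hm0 hζ))
  rw [← map_pow, hζ, map_one]

theorem modularCyclotomicCharacter_frobenius (hA : A.LiesOverPrime q) (hq : q.Prime)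
    (h : A.IsFrobeniusAt σ q) {m : ℕ} [NeZero m] (hm : ¬ q ∣ m)
    (hn : Nat.card (rootsOfUnity m Qbar) = m) :
    ((modularCyclotomicCharacter Qbar hn (σ : Qbar ≃+* Qbar) : (ZMod m)ˣ) : ZMod m) = q := by
  refine (modularCyclotomicCharacter.unique Qbar hn _ fun t ht => ?_).symm
  have ht1 := (mem_rootsOfUnity' m t).mp ht
  rw [AlgEquiv.coe_ringEquiv, isFrobeniusAt_apply_rootOfUnity hA hq h hm ht1, ZMod.val_natCast]
  exact pow_eq_pow_mod q ht1

theorem modularCyclotomicCharacter_inertia (hA : A.LiesOverPrime q) (hq : q.Prime)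
    (h : σ ∈ A.inertiaSubgroupIn ℚ) {m : ℕ} [NeZero m] (hm : ¬ q ∣ m)
    (hn : Nat.card (rootsOfUnity m Qbar) = m) :
    modularCyclotomicCharacter Qbar hn (σ : Qbar ≃+* Qbar) = 1 := by
  have h1 := modularCyclotomicCharacter.unique Qbar hn (σ : Qbar ≃+* Qbar) (c := 1)
    fun t ht => by
      have ht1 := (mem_rootsOfUnity' m t).mp ht
      rw [AlgEquiv.coe_ringEquiv, inertia_apply_rootOfUnity hA hq h hm ht1,
        ZMod.val_one_eq_one_mod]
      exact (pow_one _).symm.trans (pow_eq_pow_mod 1 ht1)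
  exact Units.ext h1.symm

theorem cyclotomicCharacter_frobenius (hA : A.LiesOverPrime q) (hq : q.Prime)
    (h : A.IsFrobeniusAt σ q) (p : ℕ) [Fact p.Prime] (hpq : q ≠ p) :
    ((cyclotomicCharacter Qbar p (σ : Qbar ≃+* Qbar) : ℤ_[p]ˣ) : ℤ_[p]) = q := by
  haveI : ∀ i, HasEnoughRootsOfUnity Qbar (p ^ i) := fun i => inferInstance
  refine PadicInt.ext_of_toZModPow.mp fun n => ?_
  rw [cyclotomicCharacter.toZModPow, map_natCast]
  exact modularCyclotomicCharacter_frobenius hA hq h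
    (fun hd => hpq ((Nat.prime_dvd_prime_iff_eq hq Fact.out).mp (hq.dvd_of_dvd_pow hd))) _

theorem cyclotomicCharacter_inertia (hA : A.LiesOverPrime q) (hq : q.Prime)
    (h : σ ∈ A.inertiaSubgroupIn ℚ) (p : ℕ) [Fact p.Prime] (hpq : q ≠ p) :
    cyclotomicCharacter Qbar p (σ : Qbar ≃+* Qbar) = 1 := by
  haveI : ∀ i, HasEnoughRootsOfUnity Qbar (p ^ i) := fun i => inferInstance
  refine Units.ext (PadicInt.ext_of_toZModPow.mp fun n => ?_)
  rw [cyclotomicCharacter.toZModPow, Units.val_one, map_one, modularCyclotomicCharacter_inertia hA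
    hq h (fun hd => hpq ((Nat.prime_dvd_prime_iff_eq hq Fact.out).mp (hq.dvd_of_dvd_pow hd))) _,
    Units.val_one]

/-- Inertia at `q` surjects onto the automorphisms of the `q^k`-th roots of unity. -/
theorem exists_inertia_modularCyclotomicCharacter_eq (hA : A.LiesOverPrime q) (hq : q.Prime)
    (k : ℕ) [NeZero (q ^ k)] (hn : Nat.card (rootsOfUnity (q ^ k) Qbar) = q ^ k)
    (u : (ZMod (q ^ k))ˣ) :
    ∃ σ ∈ A.inertiaSubgroupIn ℚ,
      modularCyclotomicCharacter Qbar hn (σ : Qbar ≃+* Qbar) = u := by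
  haveI := Fact.mk hq
  haveI := place_charP_residueField hA hq
  obtain ⟨ζ, hζ⟩ := HasEnoughRootsOfUnity.exists_primitiveRoot Qbar (q ^ k)
  have hn0 : 0 < q ^ k := pow_pos hq.pos k
  have hu := hζ.pow_of_coprime _ (ZMod.val_coe_unit_coprime u)
  obtain ⟨σ, hσ⟩ := minpoly.exists_algEquiv_of_root' (K := ℚ) (x := ζ ^ (u : ZMod (q ^ k)).val)
    (Algebra.IsAlgebraic.isAlgebraic ζ) (by
      rw [← Polynomial.cyclotomic_eq_minpoly_rat hζ hn0]
      rw [Polynomial.aeval_def, Polynomial.eval₂_eq_eval_map, Polynomial.map_cyclotomic]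
      exact hu.isRoot_cyclotomic hn0)
  let F := IntermediateField.adjoin ℚ ({ζ} : Set Qbar)
  have hζF : ζ ∈ F := IntermediateField.mem_adjoin_simple_self ℚ ζ
  haveI : IsCyclotomicExtension {q ^ k} ℚ F :=
    hζ.intermediateField_adjoin_isCyclotomicExtension ℚ
  have hcl := IsCyclotomicExtension.Rat.isIntegralClosure_adjoin_singleton_of_prime_pow
    (p := q) (k := k) (ζ := (⟨ζ, hζF⟩ : F)) (IsPrimitiveRoot.coe_submonoidClass_iff.mp hζ)
  have hζA := rootOfUnity_mem_place A hn0.ne' hζ.pow_eq_one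
  have hres : residue A ⟨ζ, hζA⟩ = 1 := by
    rw [← sub_eq_zero]
    refine eq_zero_of_pow_eq_zero (n := q ^ k) ?_
    rw [sub_pow_char_pow, ← map_pow, one_pow,
      show (⟨ζ, hζA⟩ : A) ^ q ^ k = 1 from Subtype.ext hζ.pow_eq_one, map_one, sub_self]
  have key : ∀ x ∈ F, IsIntegral ℤ x → σ x - x ∈ A.nonunits := by
    intro x hx hxi
    have hxF : IsIntegral ℤ (⟨x, hx⟩ : F) :=
      (isIntegral_algHom_iff (IsScalarTower.toAlgHom ℤ F Qbar) Subtype.val_injective).mp hxi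
    obtain ⟨⟨y, hy⟩, hyx⟩ := hcl.isIntegral_iff.mp hxF
    rw [show x = (y : Qbar) from (congrArg Subtype.val hyx).symm]
    clear hyx hxi hxF hx x
    suffices ∀ z ∈ Algebra.adjoin ℤ ({(⟨ζ, hζF⟩ : F)} : Set F),
        ∃ (a : A) (b : A), (a : Qbar) = σ (z : Qbar) ∧ (b : Qbar) = (z : Qbar) ∧
          residue A a = residue A b by
      obtain ⟨a, b, ha, hb, hab⟩ := this y hy
      rw [← ha, ← hb]
      exact residue_eq_residue_iff.mp hab
    intro z hz
    induction hz using Algebra.adjoin_induction with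
    | mem z hz =>
      rw [Set.mem_singleton_iff] at hz
      subst hz
      exact ⟨(⟨ζ, hζA⟩ : A) ^ (u : ZMod (q ^ k)).val, ⟨ζ, hζA⟩, hσ.symm, rfl,
        by rw [map_pow, hres, one_pow]⟩
    | algebraMap n => exact ⟨(n : A), (n : A), by simp, by simp, rfl⟩
    | add z w _ _ hz hw =>
      obtain ⟨a, b, ha, hb, hab⟩ := hz
      obtain ⟨c, d, hc, hd, hcd⟩ := hw
      exact ⟨a + c, b + d, by simp [ha, hc], by simp [hb, hd], by rw [map_add, map_add, hab, hcd]⟩
    | mul z w _ _ hz hw =>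
      obtain ⟨a, b, ha, hb, hab⟩ := hz
      obtain ⟨c, d, hc, hd, hcd⟩ := hw
      exact ⟨a * c, b * d, by simp [ha, hc], by simp [hb, hd], by rw [map_mul, map_mul, hab, hcd]⟩
  obtain ⟨i, hi, hix⟩ := exists_inertia_eq_on F hA hq key
  refine ⟨i, hi, Units.ext (modularCyclotomicCharacter.unique Qbar hn _ fun t ht => ?_).symm⟩
  obtain ⟨j, -, hj⟩ := hζ.eq_pow_of_pow_eq_one ((mem_rootsOfUnity' _ t).mp ht)
  rw [AlgEquiv.coe_ringEquiv, ← hj, map_pow, hix ζ hζF, hσ, ← pow_mul, ← pow_mul, mul_comm]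

end Fermat.Agent.Galois
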