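import Fermat.Agent.Galois.Decomposition
import Fermat.Prelude.Def_GaloisRep_CompletionBridge

/-!
# The place of the chosen `q`-adic embedding
-/

set_option autoImplicit false
set_option linter.style.haveILetI false

noncomputable section

namespace Fermat.Agent.Galois

open IsLocalRing
open scoped Pointwise

variable (q : ℕ) [Fact q.Prime]

theorem padicPlace_liesOverPrime : (padicPlace q).LiesOverPrime q := by
  rw [ValuationSubring.LiesOverPrime, ValuationSubring.mem_nonunits_iff_or]
  right
  rw [mem_padicPlace_iff, map_inv₀, map_natCast, not_le, nnnorm_inv, ← PadicAlgCl.valuation_def,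
    PadicAlgCl.valuation_p, one_div, inv_inv]
  exact_mod_cast (Fact.out : q.Prime).one_lt

theorem padicEmbedding_injective : Function.Injective (padicEmbedding q) :=
  (padicEmbedding q).injective

theorem padicEmbedding_denseRange : DenseRange (padicEmbedding q) := by
  intro x
  rw [Metric.mem_closure_iff]
  intro ε hε
  classical
  have hxint : IsIntegral ℚ_[q] x := Algebra.IsIntegral.isIntegral x
  set f := minpoly ℚ_[q] x with hf
  set n := f.natDegree with hn
  have hn0 : 0 < n := minpoly.natDegree_pos hxint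
  set K : ℝ := ∑ i ∈ Finset.range n, ‖x‖ ^ i + 1 with hK
  have hK0 : 0 < K := by positivity
  have hδ : 0 < ε ^ n / K := by positivity
  choose r hr using fun i : ℕ => Padic.rat_dense q (f.coeff i) hδ
  let g : Polynomial ℚ := Polynomial.X ^ n + ∑ i ∈ Finset.range n, Polynomial.C (r i) * Polynomial.X ^ i
  have hgm : g.Monic := by
    refine Polynomial.monic_X_pow_add ((Polynomial.degree_sum_le _ _).trans_lt ?_)
    refine (Finset.sup_lt_iff (WithBot.bot_lt_coe n)).mpr ?_
    exact fun i hi => (Polynomial.degree_C_mul_X_pow_le i _).trans_lt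
      (WithBot.coe_lt_coe.mpr (Finset.mem_range.mp hi))
  have hgn : g.natDegree = n := by
    refine Polynomial.natDegree_eq_of_degree_eq_some ?_
    rw [Polynomial.degree_add_eq_left_of_degree_lt, Polynomial.degree_X_pow]
    rw [Polynomial.degree_X_pow]
    refine (Polynomial.degree_sum_le _ _).trans_lt ?_
    refine (Finset.sup_lt_iff (WithBot.bot_lt_coe n)).mpr ?_
    exact fun i hi => (Polynomial.degree_C_mul_X_pow_le i _).trans_lt
      (WithBot.coe_lt_coe.mpr (Finset.mem_range.mp hi))
  have hfx : x ^ n + ∑ i ∈ Finset.range n, (algebraMap ℚ_[q] (PadicAlgCl q) (f.coeff i)) * x ^ i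
      = 0 := by
    have h := minpoly.aeval ℚ_[q] x
    have hfm : f.Monic := minpoly.monic hxint
    rw [← hf, hfm.as_sum, map_add, map_pow, Polynomial.aeval_X, map_sum] at h
    simpa [map_mul, Polynomial.aeval_C, hn, hf] using h
  have hgx : ‖Polynomial.aeval x g‖ < ε ^ n := by
    have h1 : Polynomial.aeval x g =
        ∑ i ∈ Finset.range n, algebraMap ℚ_[q] (PadicAlgCl q) ((r i : ℚ_[q]) - f.coeff i) * x ^ i := by
      simp only [g, map_add, map_pow, map_sum, map_mul, Polynomial.aeval_X, Polynomial.aeval_C]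
      conv_lhs => rw [eq_neg_of_add_eq_zero_left hfx, neg_add_eq_sub, ← Finset.sum_sub_distrib]
      refine Finset.sum_congr rfl fun i _ => ?_
      rw [map_sub, map_ratCast, eq_ratCast]
      ring
    rw [h1]
    refine (norm_sum_le _ _).trans_lt ?_
    calc ∑ i ∈ Finset.range n, ‖algebraMap ℚ_[q] (PadicAlgCl q) ((r i : ℚ_[q]) - f.coeff i) * x ^ i‖
        ≤ ∑ i ∈ Finset.range n, ε ^ n / K * ‖x‖ ^ i := by
          refine Finset.sum_le_sum fun i _ => ?_
          rw [norm_mul, norm_algebraMap', norm_pow, norm_sub_rev]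
          gcongr
          exact (hr i).le
      _ = ε ^ n / K * (K - 1) := by rw [← Finset.mul_sum, hK, add_sub_cancel_right]
      _ < ε ^ n := by
          rw [div_mul_eq_mul_div, div_lt_iff₀ hK0]
          nlinarith [pow_pos hε n]
  have hsplit : (g.map (algebraMap ℚ (AlgebraicClosure ℚ))).Splits := IsAlgClosed.splits _
  have hprod := hsplit.eq_prod_roots_of_monic (hgm.map _)
  set R := (g.map (algebraMap ℚ (AlgebraicClosure ℚ))).roots with hR
  have hev : Polynomial.aeval x g = (R.map fun b => x - padicEmbedding q b).prod := by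
    rw [Polynomial.aeval_def, ← RingHom.ext_rat
      ((padicEmbedding q).toRingHom.comp (algebraMap ℚ (AlgebraicClosure ℚ)))
      (algebraMap ℚ (PadicAlgCl q)), ← Polynomial.eval₂_map, hprod,
      Polynomial.eval₂_multiset_prod, Multiset.map_map]
    simp
  have hcard : Multiset.card R = n := by
    rw [hR, ← hsplit.natDegree_eq_card_roots, hgm.natDegree_map, hgn]
  by_contra hno
  push Not at hno
  refine not_le.mpr hgx ?_
  rw [hev, show ‖(R.map fun b => x - padicEmbedding q b).prod‖ =
      ((R.map fun b => x - padicEmbedding q b).map (‖·‖)).prod from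
    map_multiset_prod (NormedField.toMulRingNorm (PadicAlgCl q)) _, Multiset.map_map, ← hcard]
  calc ε ^ Multiset.card R = (R.map fun _ => ε).prod := by simp
    _ ≤ _ := by
      refine Multiset.prod_map_le_prod_map₀ _ _ (fun _ _ => hε.le) fun b _ => ?_
      simpa [dist_eq_norm] using hno _ ⟨b, rfl⟩

theorem localGaloisToGlobal_injective : Function.Injective (localGaloisToGlobal q) := by
  intro τ τ' h
  have heq : ∀ y, τ y = τ' y := by
    intro y
    have hc : ∀ τ : PadicAlgCl q ≃ₐ[ℚ_[q]] PadicAlgCl q, Continuous τ := fun τ =>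
      (Isometry.of_dist_eq fun a b => by
        rw [dist_eq_norm, dist_eq_norm, ← map_sub]
        exact congrArg NNReal.toReal (nnnorm_padicAlgCl_algEquiv q τ _)).continuous
    refine congrFun ((padicEmbedding_denseRange q).equalizer (hc τ) (hc τ') ?_) y
    funext z
    rw [Function.comp_apply, Function.comp_apply, ← padicEmbedding_localGaloisToGlobal, h,
      padicEmbedding_localGaloisToGlobal]
  exact AlgEquiv.ext heq

theorem norm_padicEmbedding_decomposition {σ : GalQ}
    (hσ : σ ∈ (padicPlace q).decompositionSubgroup ℚ) (x : Qbar) :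
    ‖padicEmbedding q (σ x)‖ = ‖padicEmbedding q x‖ := by
  rcases eq_or_ne x 0 with rfl | hx
  · simp
  have hq : (q : ℕ).Prime := Fact.out
  have hqn : ‖(q : PadicAlgCl q)‖ = (q : ℝ)⁻¹ := by
    rw [← map_natCast (algebraMap ℚ_[q] (PadicAlgCl q)), norm_algebraMap', Padic.norm_p]
  have key : ∀ (k : ℕ) (m : ℤ), ‖padicEmbedding q x‖ ^ k ≤ (q : ℝ) ^ m ↔
      ‖padicEmbedding q (σ x)‖ ^ k ≤ (q : ℝ) ^ m := by
    intro k m
    have h : ∀ y : Qbar, ‖padicEmbedding q y‖ ^ k ≤ (q : ℝ) ^ m ↔
        y ^ k * (q : Qbar) ^ m ∈ padicPlace q := by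
      intro y
      rw [mem_padicPlace_iff, ← NNReal.coe_le_coe, coe_nnnorm, NNReal.coe_one, map_mul, map_pow,
        map_zpow₀, map_natCast, norm_mul, norm_pow, norm_zpow, hqn, inv_zpow,
        mul_inv_le_iff₀ (zpow_pos (by exact_mod_cast hq.pos) _), one_mul]
    rw [h, h, ← (mem_decomposition_iff.mp hσ (x ^ k * (q : Qbar) ^ m)), map_mul, map_pow,
      map_zpow₀, map_natCast]
  have gap : ∀ u v : ℝ, 0 < u → u < v → ∃ (k : ℕ) (m : ℤ), u ^ k ≤ (q : ℝ) ^ m ∧
      (q : ℝ) ^ m < v ^ k := by
    intro u v hu huv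
    have hq1 : (1 : ℝ) < q := by exact_mod_cast hq.one_lt
    obtain ⟨k, hk⟩ := pow_unbounded_of_one_lt (q : ℝ) ((one_lt_div hu).mpr huv)
    obtain ⟨m, hm1, hm2⟩ := exists_mem_Ioc_zpow (pow_pos hu k) hq1
    refine ⟨k, m + 1, hm2, ?_⟩
    rw [div_pow, lt_div_iff₀ (pow_pos hu k)] at hk
    calc (q : ℝ) ^ (m + 1) = q * (q : ℝ) ^ m := by
          rw [zpow_add_one₀ (by positivity), mul_comm]
      _ < q * u ^ k := by gcongr
      _ < v ^ k := hk
  have hx1 : 0 < ‖padicEmbedding q x‖ :=
    norm_pos_iff.mpr ((map_ne_zero (padicEmbedding q)).mpr hx)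
  have hx2 : 0 < ‖padicEmbedding q (σ x)‖ :=
    norm_pos_iff.mpr ((map_ne_zero (padicEmbedding q)).mpr ((map_ne_zero σ).mpr hx))
  rcases lt_trichotomy ‖padicEmbedding q x‖ ‖padicEmbedding q (σ x)‖ with h | h | h
  · obtain ⟨k, m, h1, h2⟩ := gap _ _ hx1 h
    exact absurd ((key k m).mp h1) (not_le.mpr h2)
  · exact h.symm
  · obtain ⟨k, m, h1, h2⟩ := gap _ _ hx2 h
    exact absurd ((key k m).mpr h1) (not_le.mpr h2)

theorem exists_localGalois_of_decomposition {σ : GalQ}
    (hσ : σ ∈ (padicPlace q).decompositionSubgroup ℚ) :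
    ∃ τ : PadicAlgCl q ≃ₐ[ℚ_[q]] PadicAlgCl q, localGaloisToGlobal q τ = σ := by
  letI : NormedField Qbar :=
    NormedField.induced Qbar (PadicAlgCl q) (padicEmbedding q) (padicEmbedding q).injective
  let i : Qbar →+* PadicAlgCl q := (padicEmbedding q).toRingHom
  let c : PadicAlgCl q →+* ℂ_[q] := algebraMap (PadicAlgCl q) ℂ_[q]
  let f : Qbar →+* ℂ_[q] := (c.comp i).comp σ.toRingEquiv.toRingHom
  have hii : Isometry i := Isometry.of_dist_eq fun a b => rfl
  have hfi : Isometry f := Isometry.of_dist_eq fun a b => by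
    rw [dist_eq_norm, dist_eq_norm, ← map_sub]
    change ‖((padicEmbedding q (σ (a - b)) : PadicAlgCl q) : ℂ_[q])‖ = ‖padicEmbedding q (a - b)‖
    rw [PadicComplex.norm_extends, norm_padicEmbedding_decomposition q hσ]
  have hd : DenseRange i := padicEmbedding_denseRange q
  let T := IsDenseInducing.extendRingHom hii.isUniformInducing hd hfi.uniformContinuous
  have hTi : ∀ y, T (i y) = f y := fun y =>
    IsDenseInducing.extend_eq (hii.isUniformInducing.isDenseInducing hd) hfi.continuous y
  have hTc : Continuous T :=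
    (uniformContinuous_uniformly_extend hii.isUniformInducing hd hfi.uniformContinuous).continuous
  have hTalg : ∀ a : ℚ_[q], T (algebraMap ℚ_[q] (PadicAlgCl q) a) =
      c (algebraMap ℚ_[q] (PadicAlgCl q) a) := by
    have hcc : Continuous c := UniformSpace.Completion.continuous_coe _
    refine congrFun ((Padic.denseRange_ratCast q).equalizer
      (hTc.comp (continuous_algebraMap ℚ_[q] (PadicAlgCl q)))
      (hcc.comp (continuous_algebraMap ℚ_[q] (PadicAlgCl q))) ?_)
    funext r
    simp
  let Tₐ : PadicAlgCl q →ₐ[ℚ_[q]] ℂ_[q] :=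
    { T with
      commutes' := fun a => (hTalg a).trans
        (IsScalarTower.algebraMap_apply ℚ_[q] (PadicAlgCl q) ℂ_[q] a).symm }
  have hrange : ∀ y, ∃ z, c z = Tₐ y := by
    intro y
    have hy : IsIntegral ℚ_[q] y := Algebra.IsIntegral.isIntegral y
    have hmon : ((minpoly ℚ_[q] y).map (algebraMap ℚ_[q] (PadicAlgCl q))).Monic :=
      (minpoly.monic hy).map _
    have hs : ((minpoly ℚ_[q] y).map (algebraMap ℚ_[q] (PadicAlgCl q))).Splits :=
      IsAlgClosed.splits _
    have hroot : ((minpoly ℚ_[q] y).map (algebraMap ℚ_[q] ℂ_[q])).eval (Tₐ y) = 0 := by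
      rw [Polynomial.eval_map, ← Polynomial.aeval_def, Polynomial.aeval_algHom_apply,
        minpoly.aeval, map_zero]
    rw [IsScalarTower.algebraMap_eq ℚ_[q] (PadicAlgCl q) ℂ_[q], ← Polynomial.map_map,
      hs.eq_prod_roots_of_monic hmon, Polynomial.eval_map, Polynomial.eval₂_multiset_prod,
      Multiset.prod_eq_zero_iff, Multiset.map_map, Multiset.mem_map] at hroot
    obtain ⟨z, -, hz⟩ := hroot
    refine ⟨z, ?_⟩
    have : Tₐ y - c z = 0 := by simpa using! hz
    exact (sub_eq_zero.mp this).symm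
  choose t ht using hrange
  have hc : Function.Injective c := c.injective
  let τ₀ : PadicAlgCl q →ₐ[ℚ_[q]] PadicAlgCl q :=
    { toFun := t
      map_one' := hc (by rw [ht, map_one, map_one])
      map_mul' := fun a b => hc (by rw [ht, map_mul, map_mul, ht, ht])
      map_zero' := hc (by rw [ht, map_zero, map_zero])
      map_add' := fun a b => hc (by rw [ht, map_add, map_add, ht, ht])
      commutes' := fun a => hc (by rw [ht]; exact hTalg a) }
  let τ := AlgEquiv.ofBijective τ₀ (Algebra.IsAlgebraic.algHom_bijective τ₀)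
  refine ⟨τ, AlgEquiv.ext fun x => (padicEmbedding q).injective ?_⟩
  change padicEmbedding q (localGaloisToGlobal q τ x) = padicEmbedding q (σ x)
  rw [padicEmbedding_localGaloisToGlobal]
  exact hc ((ht _).trans (hTi x))

/-- The image of the local Galois group is the decomposition group of `padicPlace`. -/
theorem localGaloisToGlobal_range :
    (localGaloisToGlobal q).range = (padicPlace q).decompositionSubgroup ℚ := by
  ext σ
  exact ⟨fun ⟨τ, hτ⟩ => hτ ▸ localGaloisToGlobal_mem_decompositionSubgroup q τ,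
    fun hσ => exists_localGalois_of_decomposition q hσ⟩

theorem localGaloisToGlobal_mem_inertia_iff (τ : PadicAlgCl q ≃ₐ[ℚ_[q]] PadicAlgCl q) :
    localGaloisToGlobal q τ ∈ (padicPlace q).inertiaSubgroupIn ℚ ↔
      ∀ x : PadicAlgCl q, ‖x‖ ≤ 1 → ‖τ x - x‖ < 1 := by
  have hnu : ∀ z : Qbar, z ∈ (padicPlace q).nonunits ↔ ‖padicEmbedding q z‖ < 1 := by
    intro z
    rw [ValuationSubring.mem_nonunits_iff_or, mem_padicPlace_iff, map_inv₀, not_le, nnnorm_inv]
    rcases eq_or_ne z 0 with rfl | hz
    · simp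
    have hpos : 0 < ‖padicEmbedding q z‖₊ :=
      nnnorm_pos.mpr ((map_ne_zero (padicEmbedding q)).mpr hz)
    simp only [hz, false_or, one_lt_inv₀ hpos, ← NNReal.coe_lt_coe, coe_nnnorm, NNReal.coe_one]
  rw [mem_inertia_iff]
  constructor
  · rintro ⟨-, h⟩ x hx
    obtain ⟨y, hy⟩ := (padicEmbedding_denseRange q).exists_dist_lt x one_pos
    rw [dist_eq_norm] at hy
    have hyA : y ∈ padicPlace q := by
      rw [mem_padicPlace_iff, ← NNReal.coe_le_coe, coe_nnnorm, NNReal.coe_one,
        show padicEmbedding q y = x + -(x - padicEmbedding q y) by ring]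
      exact (IsUltrametricDist.norm_add_le_max _ _).trans (max_le hx (by rw [norm_neg]; exact hy.le))
    have h1 := (hnu _).mp (h y hyA)
    rw [map_sub, padicEmbedding_localGaloisToGlobal] at h1
    have h2 : ‖τ (x - padicEmbedding q y)‖ < 1 := by
      rw [← coe_nnnorm, nnnorm_padicAlgCl_algEquiv, coe_nnnorm]; exact hy
    rw [show τ x - x = (τ (x - padicEmbedding q y) + -(x - padicEmbedding q y)) +
        (τ (padicEmbedding q y) - padicEmbedding q y) by rw [map_sub]; ring]
    exact (IsUltrametricDist.norm_add_le_max _ _).trans_lt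
      (max_lt ((IsUltrametricDist.norm_add_le_max _ _).trans_lt
        (max_lt h2 (by rw [norm_neg]; exact hy))) h1)
  · intro h
    refine ⟨localGaloisToGlobal_mem_decompositionSubgroup q τ, fun y hy => ?_⟩
    rw [hnu, map_sub, padicEmbedding_localGaloisToGlobal]
    refine h _ ?_
    rw [mem_padicPlace_iff, ← NNReal.coe_le_coe] at hy
    exact hy

end Fermat.Agent.Galois
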