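import Fermat.Agent.Galois.Decomposition

/-!
# Ramified primes of a finite level, Minkowski and Hermite
-/

set_option autoImplicit false
set_option linter.style.haveILetI false

noncomputable section

namespace Fermat.Agent.Galois

open IsLocalRing NumberField
open scoped Pointwise NumberField

/-- All inertia groups at `q` are contained in `H`. -/
def InertiaLE (q : ℕ) (H : Subgroup GalQ) : Prop :=
  ∀ A : ValuationSubring Qbar, A.LiesOverPrime q → A.inertiaSubgroupIn ℚ ≤ H

variable {q : ℕ}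

theorem InertiaLE.mono {H H' : Subgroup GalQ} (h : InertiaLE q H) (hle : H ≤ H') :
    InertiaLE q H' := fun A hA => (h A hA).trans hle

theorem InertiaLE.inf {H H' : Subgroup GalQ} (h : InertiaLE q H) (h' : InertiaLE q H') :
    InertiaLE q (H ⊓ H') := fun A hA => le_inf (h A hA) (h' A hA)

theorem InertiaLE.normalCore {H : Subgroup GalQ} (h : InertiaLE q H) :
    InertiaLE q H.normalCore := by
  intro A hA σ hσ τ
  refine h (τ • A) (liesOverPrime_smul hA τ) ?_
  rw [mem_inertia_smul_iff]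
  simpa [mul_assoc] using hσ

theorem inertiaLE_normalClosure {F : IntermediateField ℚ Qbar}
    (h : InertiaLE q F.fixingSubgroup) :
    InertiaLE q (IntermediateField.normalClosure ℚ F Qbar).fixingSubgroup := by
  refine h.normalCore.mono ?_
  rw [← IntermediateField.le_iff_le, _root_.normalClosure_def, iSup_le_iff]
  rintro f y ⟨x, rfl⟩ ⟨g, hg⟩
  obtain ⟨τ, hτ⟩ : ∃ τ : GalQ, ∀ z : F, τ z = f z := by
    refine ⟨AlgEquiv.ofBijective (f.liftNormal Qbar)
      ((f.liftNormal Qbar).normal_bijective ℚ Qbar Qbar), fun z => ?_⟩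
    exact f.liftNormal_commutes Qbar z
  change g (f x) = f x
  have h1 : (τ⁻¹ * g * τ⁻¹⁻¹) x = (x : Qbar) :=
    (IntermediateField.mem_fixingSubgroup_iff _ _).mp (hg τ⁻¹) x x.2
  rw [inv_inv, AlgEquiv.mul_apply, AlgEquiv.mul_apply] at h1
  have h2 := congrArg τ h1
  rwa [galQ_apply_inv, hτ] at h2

/-- Inertia at `q` fixes a root of an integral polynomial when `q` does not divide an integer
in the ideal generated by the polynomial and its derivative. -/
theorem inertia_apply_root {A : ValuationSubring Qbar} {σ : GalQ} (hA : A.LiesOverPrime q)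
    (hq : q.Prime) (hσ : σ ∈ A.inertiaSubgroupIn ℚ) (f u v : Polynomial ℤ) (D : ℤ)
    (hD : u * f + v * f.derivative = Polynomial.C D) (hqD : ¬ (q : ℤ) ∣ D)
    {x : Qbar} (hxi : IsIntegral ℤ x) (hx : Polynomial.aeval x f = 0) : σ x = x := by
  by_contra hne
  obtain ⟨hσD, hσI⟩ := mem_inertia_iff.mp hσ
  have hxA := place_mem_of_isIntegral A hxi
  have hσx := decomposition_apply_mem hσD hxA
  set h : Qbar := σ x - x with hh
  have hhA : h ∈ A := sub_mem hσx hxA
  let g : Polynomial A := f.map (Int.castRingHom A)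
  obtain ⟨c, hc⟩ := g.binomExpansion ⟨x, hxA⟩ ⟨h, hhA⟩
  have hev : ∀ (w : Polynomial ℤ) (y : A), (((w.map (Int.castRingHom A)).eval y : A) : Qbar) =
      Polynomial.aeval (y : Qbar) w := by
    intro w y
    change A.subtype _ = _
    rw [Polynomial.eval_map, Polynomial.hom_eval₂, Polynomial.aeval_def]
    congr 1
  have hc1 := congrArg (fun a : A => (a : Qbar)) hc
  simp only [g, Polynomial.derivative_map] at hc1
  push_cast at hc1
  rw [hev, hev, hev] at hc1
  rw [show ((⟨x, hxA⟩ + ⟨h, hhA⟩ : A) : Qbar) = σ x by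
    change x + h = σ x
    rw [hh]; ring] at hc1
  rw [show Polynomial.aeval (σ x) f = 0 by
      have := Polynomial.aeval_algHom_apply σ.toRingEquiv.toRingHom.toIntAlgHom x f
      rw [hx, map_zero] at this
      exact this, show Polynomial.aeval ((⟨x, hxA⟩ : A) : Qbar) f = 0 from hx, zero_add] at hc1
  have hd : Polynomial.aeval x f.derivative = -((c : Qbar) * h) := by
    have hh0 : h ≠ 0 := sub_ne_zero.mpr hne
    apply mul_right_cancel₀ hh0
    linear_combination -hc1
  have hD' : (D : Qbar) = Polynomial.aeval x v * Polynomial.aeval x f.derivative := by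
    have := congrArg (Polynomial.aeval x) hD
    rw [map_add, map_mul, map_mul, hx, mul_zero, zero_add, Polynomial.aeval_C] at this
    rw [eq_intCast] at this
    exact this.symm
  apply hqD
  rw [← place_intCast_mem_nonunits_iff hA hq (L := Qbar), hD', hd, mul_neg, neg_mem_iff, ← mul_assoc,
    A.mem_nonunits_iff, map_mul]
  refine (mul_le_of_le_one_left' ((A.valuation_le_one_iff _).mpr (mul_mem ?_ c.2))).trans_lt
    (hσI x hxA)
  rw [← hev v ⟨x, hxA⟩]
  exact SetLike.coe_mem _

section Level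

variable (F : IntermediateField ℚ Qbar)

theorem levelInteger_isIntegral (x : 𝓞 F) : IsIntegral ℤ ((x : F) : Qbar) :=
  x.isIntegral_coe.map (IsScalarTower.toAlgHom ℤ F Qbar)

/-- The integers of a level, inside the algebraic closure. -/
def levelIntegerHom : 𝓞 F →+* Qbar := F.val.toRingHom.comp (algebraMap (𝓞 F) F)

theorem levelIntegerHom_mem (A : ValuationSubring Qbar) (x : 𝓞 F) : levelIntegerHom F x ∈ A :=
  place_mem_of_isIntegral A (levelInteger_isIntegral F x)

/-- The prime of a level below a place. -/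
def levelPlaceIdeal (A : ValuationSubring Qbar) : Ideal (𝓞 F) :=
  (maximalIdeal A).comap ((levelIntegerHom F).codRestrict A (levelIntegerHom_mem F A))

theorem mem_levelPlaceIdeal_iff {A : ValuationSubring Qbar} {x : 𝓞 F} :
    x ∈ levelPlaceIdeal F A ↔ ((x : F) : Qbar) ∈ A.nonunits :=
  A.coe_mem_nonunits_iff.symm

instance levelPlaceIdeal_isPrime (A : ValuationSubring Qbar) : (levelPlaceIdeal F A).IsPrime :=
  Ideal.IsPrime.comap _

theorem natCast_mem_levelPlaceIdeal {A : ValuationSubring Qbar} (hA : A.LiesOverPrime q) :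
    (q : 𝓞 F) ∈ levelPlaceIdeal F A := by
  rw [mem_levelPlaceIdeal_iff]
  simpa using! hA

theorem exists_levelPlaceIdeal_eq [NumberField F] (hq : q.Prime) (P : Ideal (𝓞 F)) [P.IsPrime]
    (hP : (q : 𝓞 F) ∈ P) :
    ∃ A : ValuationSubring Qbar, A.LiesOverPrime q ∧ levelPlaceIdeal F A = P := by
  have hinj : Function.Injective (levelIntegerHom F) :=
    F.val.injective.comp RingOfIntegers.coe_injective
  let e : 𝓞 F ≃+* (levelIntegerHom F).range := RingEquiv.ofBijective
    (levelIntegerHom F).rangeRestrict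
    ⟨fun x y h => hinj (congrArg Subtype.val h :), (levelIntegerHom F).rangeRestrict_surjective⟩
  have hI : P.comap e.symm.toRingHom ≠ ⊤ := Ideal.IsPrime.ne_top (Ideal.IsPrime.comap _)
  obtain ⟨A, -, hA⟩ := Ideal.image_subset_nonunits_valuationSubring _ hI
  have hle : P ≤ levelPlaceIdeal F A := by
    intro x hx
    rw [mem_levelPlaceIdeal_iff]
    refine hA ⟨e x, ?_, rfl⟩
    rw [SetLike.mem_coe, Ideal.mem_comap]
    simpa using hx
  refine ⟨A, ?_, ?_⟩
  · simpa [ValuationSubring.LiesOverPrime] using! (mem_levelPlaceIdeal_iff F).mp (hle hP)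
  · have hP0 : P ≠ ⊥ := fun h0 => Nat.cast_ne_zero.mpr hq.ne_zero (Ideal.mem_bot.mp (h0 ▸ hP))
    exact ((Ideal.IsPrime.isMaximal inferInstance hP0).eq_of_le Ideal.IsPrime.ne_top' hle).symm

theorem exists_galQ_restrict [Normal ℚ F] (g : Gal(F/ℚ)) :
    ∃ σ : GalQ, ∀ x : F, σ (x : Qbar) = ((g x : F) : Qbar) :=
  ⟨g.liftNormal Qbar, fun x => g.liftNormal_commutes Qbar x⟩

/-- Inertia fixes a normal level iff the inertia groups of its primes are trivial. -/
theorem inertiaLE_iff_inertia_eq_bot [NumberField F] [Normal ℚ F] (hq : q.Prime) :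
    InertiaLE q F.fixingSubgroup ↔ ∀ P : Ideal (𝓞 F), P.IsPrime → (q : 𝓞 F) ∈ P →
      P.inertia Gal(F/ℚ) = ⊥ := by
  constructor
  · intro h P hP hqP
    obtain ⟨A, hA, rfl⟩ := exists_levelPlaceIdeal_eq F hq P hqP
    rw [Subgroup.eq_bot_iff_forall]
    intro g hg
    obtain ⟨σ, hσ⟩ := exists_galQ_restrict F g
    obtain ⟨i, hi, hix⟩ := exists_inertia_eq_on (σ := σ) F hA hq fun x hx hxi => by
      let y : 𝓞 F := ⟨⟨x, hx⟩,
        (isIntegral_algHom_iff (IsScalarTower.toAlgHom ℤ F Qbar) Subtype.val_injective).mp hxi⟩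
      have := (mem_levelPlaceIdeal_iff F).mp (hg y)
      rw [hσ ⟨x, hx⟩]
      exact this
    ext x
    change ((g x : F) : Qbar) = (x : Qbar)
    rw [← hσ, ← hix x x.2, (IntermediateField.mem_fixingSubgroup_iff _ _).mp (h A hA hi) x x.2]
  · intro h A hA σ hσ
    let g : Gal(F/ℚ) := σ.restrictNormal F
    have hgx : ∀ x : F, ((g x : F) : Qbar) = σ x := σ.restrictNormal_commutes F
    have hg : g ∈ (levelPlaceIdeal F A).inertia Gal(F/ℚ) := by
      intro y
      change g • y - y ∈ levelPlaceIdeal F A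
      rw [mem_levelPlaceIdeal_iff]
      change ((g (y : F) : F) : Qbar) - ((y : F) : Qbar) ∈ A.nonunits
      rw [hgx]
      exact inertia_sub_mem_nonunits hσ (levelIntegerHom_mem F A y)
    rw [h _ inferInstance (natCast_mem_levelPlaceIdeal F hA), Subgroup.mem_bot] at hg
    rw [IntermediateField.mem_fixingSubgroup_iff]
    intro x hx
    rw [← hgx ⟨x, hx⟩, hg]
    rfl

end Level

theorem inertiaLE_iff_not_dvd_discr (F : IntermediateField ℚ Qbar) [FiniteDimensional ℚ F]
    [IsGalois ℚ F] [NumberField F] (hq : q.Prime) :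
    InertiaLE q F.fixingSubgroup ↔ ¬ (q : ℤ) ∣ NumberField.discr F := by
  rw [inertiaLE_iff_inertia_eq_bot F hq,
    NumberField.not_dvd_discr_iff_forall_mem F (𝓞 F) (Nat.prime_iff_prime_int.mp hq)]
  refine forall_congr' fun P => forall_congr' fun hP => ?_
  rw [Int.cast_natCast]
  refine imp_congr_right fun hqP => ?_
  have hP0 : P ≠ ⊥ := fun h0 => Nat.cast_ne_zero.mpr hq.ne_zero (Ideal.mem_bot.mp (h0 ▸ hqP))
  haveI : (P.under ℤ).IsMaximal := Ideal.IsPrime.isMaximal inferInstance
    (mt Ideal.eq_bot_of_comap_eq_bot hP0)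
  haveI : Finite (ℤ ⧸ P.under ℤ) :=
    Ideal.finiteQuotientOfFreeOfNeBot _ (mt Ideal.eq_bot_of_comap_eq_bot hP0)
  rw [← Ideal.ramificationIdx_eq_one_iff,
    ← Ideal.ramificationIdxIn_eq_ramificationIdx (P.under ℤ) P Gal(F/ℚ),
    ← Ideal.card_inertia_eq_ramificationIdxIn (G := Gal(F/ℚ)) (P.under ℤ) P,
    Subgroup.card_eq_one]

theorem exists_finset_inertiaLE (F : IntermediateField ℚ Qbar) [FiniteDimensional ℚ F] :
    ∃ S : Finset ℕ, ∀ q : ℕ, q.Prime → q ∉ S → InertiaLE q F.fixingSubgroup := by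
  let N := IntermediateField.normalClosure ℚ F Qbar
  haveI : NumberField N := NumberField.of_module_finite ℚ N
  haveI : Normal ℚ N := normalClosure.normal ℚ F Qbar
  haveI : IsGalois ℚ N := ⟨⟩
  refine ⟨(NumberField.discr N).natAbs.primeFactors, fun q hq hqS => ?_⟩
  refine ((inertiaLE_iff_not_dvd_discr N hq).mpr fun hd => hqS ?_).mono
    (IntermediateField.fixingSubgroup_antitone F.le_normalClosure)
  exact Nat.mem_primeFactors.mpr ⟨hq, Int.natCast_dvd.mp hd,
    Int.natAbs_ne_zero.mpr (NumberField.discr_ne_zero N)⟩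

/-- Minkowski: a finite extension of `ℚ` unramified at every prime is `ℚ`. -/
theorem eq_bot_of_forall_inertiaLE (F : IntermediateField ℚ Qbar) [FiniteDimensional ℚ F]
    (h : ∀ q : ℕ, q.Prime → InertiaLE q F.fixingSubgroup) : F = ⊥ := by
  let N := IntermediateField.normalClosure ℚ F Qbar
  haveI : NumberField N := NumberField.of_module_finite ℚ N
  haveI : Normal ℚ N := normalClosure.normal ℚ F Qbar
  haveI : IsGalois ℚ N := ⟨⟩
  refine le_bot_iff.mp (F.le_normalClosure.trans ?_)
  rw [le_bot_iff, ← IntermediateField.finrank_eq_one_iff]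
  by_contra hne
  have h2 := NumberField.abs_discr_gt_two (K := N)
    (lt_of_le_of_ne Module.finrank_pos (Ne.symm hne))
  obtain ⟨p, hp, hpd⟩ := Nat.exists_prime_and_dvd (n := (NumberField.discr N).natAbs)
    (fun h1 => by rw [Int.abs_eq_natAbs, h1] at h2; norm_num at h2)
  exact (inertiaLE_iff_not_dvd_discr N hp).mp (inertiaLE_normalClosure (h p hp))
    (Int.natCast_dvd.mpr hpd)

theorem eq_top_of_forall_inertiaLE (H : Subgroup GalQ)
    (hH : ∃ F : IntermediateField ℚ Qbar, FiniteDimensional ℚ F ∧ F.fixingSubgroup ≤ H)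
    (h : ∀ q : ℕ, q.Prime → InertiaLE q H) : H = ⊤ := by
  obtain ⟨F, hF, hFH⟩ := hH
  have hopen : IsOpen (H : Set GalQ) := Subgroup.isOpen_mono hFH F.fixingSubgroup_isOpen
  let H' : ClosedSubgroup GalQ := ⟨H, Subgroup.isClosed_of_isOpen _ hopen⟩
  have hfix : (IntermediateField.fixedField H).fixingSubgroup = H :=
    InfiniteGalois.fixingSubgroup_fixedField H'
  have hle : IntermediateField.fixedField H ≤ F := by
    rw [← InfiniteGalois.fixedField_fixingSubgroup F]
    exact fun x hx g => hx ⟨g.1, hFH g.2⟩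
  haveI : FiniteDimensional ℚ (IntermediateField.fixedField H) :=
    FiniteDimensional.of_injective (IntermediateField.inclusion hle).toLinearMap
      (IntermediateField.inclusion_injective hle)
  rw [← hfix, eq_bot_of_forall_inertiaLE (IntermediateField.fixedField H)
    (fun q hq => by rw [hfix]; exact h q hq),
    IntermediateField.fixingSubgroup_bot]

theorem monoidHom_eq_one_of_forall_inertia {G : Type*} [Group G] (ρ : GalQ →* G)
    (hρ : ∃ F : IntermediateField ℚ Qbar, FiniteDimensional ℚ F ∧ F.fixingSubgroup ≤ ρ.ker)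
    (h : ∀ q : ℕ, q.Prime → ∀ A : ValuationSubring Qbar, A.LiesOverPrime q →
      ∀ σ ∈ A.inertiaSubgroupIn ℚ, ρ σ = 1) : ρ = 1 := by
  rw [← MonoidHom.ker_eq_top_iff]
  exact eq_top_of_forall_inertiaLE _ hρ h

section Discriminant

variable (K : Type*) [Field K] [NumberField K]

theorem pow_dvd_iff_le_count {P I : Ideal (𝓞 K)} [P.IsPrime] (hP0 : P ≠ ⊥)
    (hI : I ≠ ⊥) (k : ℕ) :
    P ^ k ∣ I ↔ k ≤ (UniqueFactorizationMonoid.normalizedFactors I).count P := by
  classical
  have hirr : Irreducible P := (Ideal.prime_of_isPrime hP0 inferInstance).irreducible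
  rw [UniqueFactorizationMonoid.dvd_iff_normalizedFactors_le_normalizedFactors
    (pow_ne_zero _ hP0) hI, hirr.normalizedFactors_pow, normalize_eq,
    Multiset.le_count_iff_replicate_le]

theorem smul_differentIdeal [IsGalois ℚ K] (g : Gal(K/ℚ)) :
    g • differentIdeal ℤ (𝓞 K) = differentIdeal ℤ (𝓞 K) := by
  have hmem : ∀ x : 𝓞 K, x ∈ differentIdeal ℤ (𝓞 K) ↔
      ∀ y : K, (∀ a : 𝓞 K, Algebra.trace ℚ K (y * a) ∈ (algebraMap ℤ ℚ).range) →
        (x : K) * y ∈ (1 : Submodule (𝓞 K) K) := by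
    intro x
    have hx : x ∈ differentIdeal ℤ (𝓞 K) ↔
        (x : K) ∈ IsLocalization.coeSubmodule K (differentIdeal ℤ (𝓞 K)) := by
      constructor
      · exact fun h => ⟨x, h, rfl⟩
      · rintro ⟨y, hy, hxy⟩
        exact RingOfIntegers.coe_injective hxy ▸ hy
    rw [hx, coeSubmodule_differentIdeal ℤ ℚ, Submodule.mem_div_iff_forall_mul_mem]
    refine forall_congr' fun y => imp_congr_left ?_
    rw [Submodule.mem_traceDual]
    constructor
    · exact fun h a => h _ (Submodule.mem_one.mpr ⟨a, rfl⟩)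
    · rintro h a ha
      obtain ⟨b, rfl⟩ := Submodule.mem_one.mp ha
      exact h b
  have key : ∀ g : Gal(K/ℚ), ∀ x ∈ differentIdeal ℤ (𝓞 K), g • x ∈ differentIdeal ℤ (𝓞 K) := by
    intro g x hx
    rw [hmem] at hx ⊢
    intro y hy
    have h2 := hx (g⁻¹ y) fun a => by
      have h3 := hy (g • a)
      have heq : y * ((g • a : 𝓞 K) : K) = g (g⁻¹ y * (a : K)) := by
        rw [map_mul, ← AlgEquiv.mul_apply, mul_inv_cancel, AlgEquiv.one_apply]
        rfl
      rw [heq, Algebra.trace_eq_of_algEquiv] at h3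
      exact h3
    obtain ⟨b, hb⟩ := Submodule.mem_one.mp h2
    refine Submodule.mem_one.mpr ⟨g • b, ?_⟩
    change g (b : K) = g (x : K) * y
    rw [show (b : K) = (x : K) * g⁻¹ y from hb, map_mul, ← AlgEquiv.mul_apply, mul_inv_cancel,
      AlgEquiv.one_apply]
  ext x
  rw [Ideal.mem_pointwise_smul_iff_inv_smul_mem]
  exact ⟨fun h => by simpa using key g _ h, key g⁻¹ x⟩

theorem count_differentIdeal_smul [IsGalois ℚ K] {P : Ideal (𝓞 K)} [P.IsPrime] (_hP0 : P ≠ ⊥)
    (g : Gal(K/ℚ)) (k : ℕ) :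
    (g • P) ^ k ∣ differentIdeal ℤ (𝓞 K) ↔ P ^ k ∣ differentIdeal ℤ (𝓞 K) := by
  conv_lhs => rw [← smul_differentIdeal K g, ← smul_pow']
  rw [Ideal.dvd_iff_le, Ideal.dvd_iff_le, Ideal.pointwise_smul_le_pointwise_smul_iff]

/-- The absolute discriminant of a Galois number field divides an explicit integer. -/
theorem discr_natAbs_dvd_of_isGalois [IsGalois ℚ K] (S : Finset ℕ)
    (h : ∀ q : ℕ, q.Prime → q ∉ S → ¬ (q : ℤ) ∣ NumberField.discr K) :
    (NumberField.discr K).natAbs ∣
      (∏ q ∈ S.filter Nat.Prime, q ^ (Module.finrank ℚ K + 1)) ^ Module.finrank ℚ K := by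
  classical
  set n := Module.finrank ℚ K with hn
  set M := ∏ q ∈ S.filter Nat.Prime, q ^ (n + 1) with hM
  have hM0 : M ≠ 0 := Finset.prod_ne_zero_iff.mpr fun q hq =>
    pow_ne_zero _ (Finset.mem_filter.mp hq).2.ne_zero
  set D := differentIdeal ℤ (𝓞 K) with hD
  have hD0 : D ≠ ⊥ := differentIdeal_ne_bot
  suffices D ∣ Ideal.span {(M : 𝓞 K)} by
    have h1 := map_dvd Ideal.absNorm this
    rwa [NumberField.absNorm_differentIdeal K, Ideal.absNorm_span_singleton,
      ← map_natCast (algebraMap ℤ (𝓞 K)), Algebra.norm_algebraMap, Int.natAbs_pow,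
      Int.natAbs_natCast, RingOfIntegers.rank] at h1
  have hspan : ∀ m : ℕ, m ≠ 0 → Ideal.span {(m : 𝓞 K)} ≠ ⊥ := fun m hm => by
    simpa [Ideal.span_singleton_eq_bot] using hm
  rw [UniqueFactorizationMonoid.dvd_iff_normalizedFactors_le_normalizedFactors hD0 (hspan M hM0),
    Multiset.le_iff_count]
  intro P
  by_contra hlt
  rw [not_le] at hlt
  have hPmem : P ∈ UniqueFactorizationMonoid.normalizedFactors D :=
    Multiset.count_pos.mp (lt_of_le_of_lt (Nat.zero_le _) hlt)
  have hPp := UniqueFactorizationMonoid.prime_of_normalized_factor _ hPmem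
  haveI : P.IsPrime := Ideal.isPrime_of_prime hPp
  have hP0 : P ≠ ⊥ := hPp.ne_zero
  obtain ⟨q, hq, hqP⟩ : ∃ q : ℕ, q.Prime ∧ (q : 𝓞 K) ∈ P := by
    obtain ⟨m, hm⟩ := IsPrincipalIdealRing.principal (P.under ℤ)
    have hm0 : m ≠ 0 := fun h0 => hP0 (Ideal.eq_bot_of_comap_eq_bot (hm.trans (by simp [h0])))
    have hmp : Prime m := by
      rw [← Ideal.span_singleton_prime hm0, ← Ideal.submodule_span_eq, ← hm]
      infer_instance
    refine ⟨m.natAbs, Int.prime_iff_natAbs_prime.mp hmp, ?_⟩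
    have hmmem : (m.natAbs : ℤ) ∈ P.under ℤ := by
      rw [hm, Ideal.submodule_span_eq, Ideal.mem_span_singleton]
      exact Int.dvd_natAbs_self
    have := Ideal.mem_comap.mp hmmem
    rwa [map_natCast] at this
  by_cases hqS : q ∈ S
  swap
  · have hunr := (NumberField.not_dvd_discr_iff_forall_mem K (𝓞 K)
      (Nat.prime_iff_prime_int.mp hq)).mp (h q hq hqS) P inferInstance (by simpa using hqP)
    exact not_dvd_differentIdeal_iff.mpr hunr
      (UniqueFactorizationMonoid.dvd_of_mem_normalizedFactors hPmem)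
  set T := Ideal.span {((q ^ n : ℕ) : 𝓞 K)} with hT
  have hT0 : T ≠ ⊥ := hspan _ (pow_ne_zero _ hq.ne_zero)
  have hTM : T ∣ Ideal.span {(M : 𝓞 K)} := by
    rw [Ideal.dvd_iff_le, Ideal.span_singleton_le_span_singleton]
    exact Nat.cast_dvd_cast ((pow_dvd_pow q (Nat.le_succ n)).trans
      (Finset.dvd_prod_of_mem (fun r => r ^ (n + 1)) (Finset.mem_filter.mpr ⟨hqS, hq⟩)))
  have hTD : T ∣ D := by
    rw [UniqueFactorizationMonoid.dvd_iff_normalizedFactors_le_normalizedFactors hT0 hD0,
      Multiset.le_iff_count]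
    intro Q
    rcases Nat.eq_zero_or_pos
      ((UniqueFactorizationMonoid.normalizedFactors T).count Q) with h0 | hQmem
    · exact h0 ▸ Nat.zero_le _
    replace hQmem := Multiset.count_pos.mp hQmem
    have hQp := UniqueFactorizationMonoid.prime_of_normalized_factor _ hQmem
    haveI : Q.IsPrime := Ideal.isPrime_of_prime hQp
    have hqQ : (q : 𝓞 K) ∈ Q := by
      have := Ideal.dvd_iff_le.mp
        (UniqueFactorizationMonoid.dvd_of_mem_normalizedFactors hQmem)
        (Ideal.mem_span_singleton_self _)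
      rw [Nat.cast_pow] at this
      exact Ideal.IsPrime.mem_of_pow_mem inferInstance n this
    have hqi : Prime (q : ℤ) := Nat.prime_iff_prime_int.mp hq
    haveI : P.LiesOver (Ideal.span {(q : ℤ)}) :=
      (Ideal.liesOver_span_iff Ideal.IsPrime.ne_top' hqi).mpr (by simpa using hqP)
    haveI : Q.LiesOver (Ideal.span {(q : ℤ)}) :=
      (Ideal.liesOver_span_iff Ideal.IsPrime.ne_top' hqi).mpr (by simpa using hqQ)
    obtain ⟨g, hg⟩ := Ideal.exists_smul_eq_of_isGaloisGroup (Ideal.span {(q : ℤ)}) P Q Gal(K/ℚ)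
    set c := (UniqueFactorizationMonoid.normalizedFactors T).count Q with hc
    rw [← pow_dvd_iff_le_count K hQp.ne_zero hD0, ← hg, count_differentIdeal_smul K hP0 g]
    rw [pow_dvd_iff_le_count K hP0 hD0]
    refine le_trans ?_ hlt.le
    rw [← pow_dvd_iff_le_count K hP0 (hspan M hM0)]
    refine dvd_trans ?_ hTM
    have h1 : Q ^ c ∣ T := (pow_dvd_iff_le_count K hQp.ne_zero hT0 c).mpr le_rfl
    rw [← hg, ← smul_pow', Ideal.dvd_iff_le] at h1
    rw [Ideal.dvd_iff_le]
    have h2 : g • T = T := by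
      rw [hT, Ideal.pointwise_smul_def, Ideal.map_span, Set.image_singleton, map_natCast]
    rwa [← h2, Ideal.pointwise_smul_le_pointwise_smul_iff] at h1
  have hle := (differentialIdeal_le_iff (A := ℤ) (K := ℚ) (B := 𝓞 K) (L := K) hT0).mp
    (Ideal.dvd_iff_le.mp hTD)
  have hmem : ((q ^ n : ℕ) : K)⁻¹ ∈
      (((T⁻¹ : FractionalIdeal (nonZeroDivisors (𝓞 K)) K)) : Submodule (𝓞 K) K) := by
    rw [hT, FractionalIdeal.coeIdeal_span_singleton, FractionalIdeal.spanSingleton_inv,
      FractionalIdeal.coe_spanSingleton, map_natCast]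
    exact Submodule.mem_span_singleton_self _
  obtain ⟨m, hm⟩ := Submodule.mem_one.mp (hle ⟨_, hmem, rfl⟩)
  have htr : Algebra.trace ℚ K ((q ^ n : ℕ) : K)⁻¹ = (n : ℚ) * ((q ^ n : ℕ) : ℚ)⁻¹ := by
    rw [← map_natCast (algebraMap ℚ K), ← map_inv₀, Algebra.trace_algebraMap, nsmul_eq_mul]
  have hm' : (m : ℚ) = (n : ℚ) * ((q ^ n : ℕ) : ℚ)⁻¹ := by rw [← htr]; exact hm
  rw [eq_mul_inv_iff_mul_eq₀ (Nat.cast_ne_zero.mpr (pow_ne_zero _ hq.ne_zero))] at hm'
  have hm2 : m * ((q ^ n : ℕ) : ℤ) = (n : ℤ) := by exact_mod_cast hm'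
  have hle2 := Nat.le_of_dvd Module.finrank_pos
    (Int.natCast_dvd_natCast.mp ⟨m, by rw [← hm2, mul_comm]⟩ : q ^ n ∣ n)
  exact absurd (Nat.lt_pow_self hq.one_lt (n := n)) (not_lt.mpr hle2)

end Discriminant

/-- The discriminant of a Galois level is bounded in terms of degree and ramified primes. -/
theorem discr_natAbs_le_of_inertiaLE (F : IntermediateField ℚ Qbar) [FiniteDimensional ℚ F]
    [IsGalois ℚ F] [NumberField F] (S : Finset ℕ)
    (h : ∀ q : ℕ, q.Prime → q ∉ S → InertiaLE q F.fixingSubgroup) :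
    (NumberField.discr F).natAbs ≤
      (∏ q ∈ S.filter Nat.Prime, q ^ (Module.finrank ℚ F + 1)) ^ Module.finrank ℚ F :=
  Nat.le_of_dvd
    (pow_pos (Finset.prod_pos fun q hq => pow_pos (Finset.mem_filter.mp hq).2.pos _) _)
    (discr_natAbs_dvd_of_isGalois F S fun q hq hqS =>
      (inertiaLE_iff_not_dvd_discr F hq).mp (h q hq hqS))

theorem finrank_normalClosure_le (F : IntermediateField ℚ Qbar) [FiniteDimensional ℚ F] :
    Module.finrank ℚ (IntermediateField.normalClosure ℚ F Qbar) ≤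
      Module.finrank ℚ F ^ Module.finrank ℚ F := by
  classical
  set N := IntermediateField.normalClosure ℚ F Qbar with hN
  haveI : Normal ℚ N := normalClosure.normal ℚ F Qbar
  haveI : IsGalois ℚ N := ⟨⟩
  have hcard : Nat.card (F →ₐ[ℚ] Qbar) = Module.finrank ℚ F := by
    rw [Nat.card_eq_fintype_card, AlgHom.card]
  choose σ hσ using fun g => exists_galQ_restrict N g
  rw [← IsGalois.card_aut_eq_finrank ℚ N]
  calc Nat.card Gal(N/ℚ) ≤ Nat.card ((F →ₐ[ℚ] Qbar) → (F →ₐ[ℚ] Qbar)) := by
        refine Nat.card_le_card_of_injective (fun g f => (σ g).toAlgHom.comp f) fun g g' hgg' => ?_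
        have hle : N ≤ IntermediateField.fixedField (Subgroup.zpowers ((σ g')⁻¹ * σ g)) := by
          rw [hN, _root_.normalClosure_def, iSup_le_iff]
          rintro f y ⟨x, rfl⟩ ⟨τ, k, rfl⟩
          have h1 : σ g (f x) = σ g' (f x) := AlgHom.congr_fun (congrFun hgg' f) x
          have h2 : ((σ g')⁻¹ * σ g) ∈ MulAction.stabilizer GalQ (f x) := by
            change ((σ g')⁻¹ * σ g) (f x) = f x
            rw [AlgEquiv.mul_apply, h1, galQ_inv_apply]
          exact zpow_mem h2 k
        ext x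
        have h3 : ((σ g')⁻¹ * σ g) x = (x : Qbar) := hle x.2 ⟨_, Subgroup.mem_zpowers _⟩
        rw [AlgEquiv.mul_apply] at h3
        have h4 := congrArg (σ g') h3
        rw [galQ_apply_inv, hσ, hσ] at h4
        exact h4
    _ = _ := by rw [Nat.card_fun, hcard]

/-- Hermite: finitely many levels of bounded degree and given ramification set. -/
theorem finite_setOf_inertiaLE (S : Finset ℕ) (d : ℕ) :
    {F : IntermediateField ℚ Qbar | FiniteDimensional ℚ F ∧ Module.finrank ℚ F ≤ d ∧
      ∀ q : ℕ, q.Prime → q ∉ S → InertiaLE q F.fixingSubgroup}.Finite := by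
  classical
  let B := max 1 (d ^ d)
  let C : ℕ := (Finset.range (B + 1)).sup fun n =>
    (∏ q ∈ S.filter Nat.Prime, q ^ (n + 1)) ^ n
  refine ((NumberField.finite_of_discr_bdd Qbar C).biUnion
    (t := fun N : {F : IntermediateField ℚ Qbar // FiniteDimensional ℚ F} =>
      {F : IntermediateField ℚ Qbar | F ≤ N.1}) fun N _ => ?_).subset ?_
  · haveI := N.2
    haveI : NumberField N.1 := NumberField.of_module_finite ℚ N.1
    have hfin := Field.finite_intermediateField_of_exists_primitive_element ℚ N.1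
      (Field.exists_primitive_element ℚ N.1)
    refine (@Set.finite_range _ _ (IntermediateField.lift (F := N.1)) hfin).subset fun F hF => ?_
    exact ⟨IntermediateField.restrict hF, IntermediateField.lift_restrict hF⟩
  · rintro F ⟨hF, hd, hFS⟩
    haveI := hF
    let N := IntermediateField.normalClosure ℚ F Qbar
    haveI : NumberField N := NumberField.of_module_finite ℚ N
    haveI : Normal ℚ N := normalClosure.normal ℚ F Qbar
    haveI : IsGalois ℚ N := ⟨⟩
    refine Set.mem_iUnion₂.mpr ⟨⟨N, inferInstance⟩, ?_, F.le_normalClosure⟩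
    have hN : Module.finrank ℚ N < B + 1 := by
      have h1 : Module.finrank ℚ N ≤ d ^ d :=
        (finrank_normalClosure_le F).trans ((Nat.pow_le_pow_left hd _).trans (Nat.pow_le_pow_right (Module.finrank_pos.trans_le hd) hd))
      omega
    have h2 := (discr_natAbs_le_of_inertiaLE N S fun q hq hqS =>
      inertiaLE_normalClosure (hFS q hq hqS)).trans
      (Finset.le_sup (f := fun n => (∏ q ∈ S.filter Nat.Prime, q ^ (n + 1)) ^ n)
        (Finset.mem_range.mpr hN))
    change |NumberField.discr N| ≤ (C : ℤ)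
    rw [← Int.natCast_natAbs]
    exact_mod_cast h2

/-- Hermite, group form: there is one level containing all those of bounded degree. -/
theorem exists_level_of_bounded_index (S : Finset ℕ) (d : ℕ) :
    ∃ M : IntermediateField ℚ Qbar, FiniteDimensional ℚ M ∧ Normal ℚ M ∧
      ∀ F : IntermediateField ℚ Qbar, FiniteDimensional ℚ F → Module.finrank ℚ F ≤ d →
        (∀ q : ℕ, q.Prime → q ∉ S → InertiaLE q F.fixingSubgroup) → F ≤ M := by
  let T := (finite_setOf_inertiaLE S d).toFinset
  haveI : ∀ i : T, FiniteDimensional ℚ i.1 := fun i =>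
    ((finite_setOf_inertiaLE S d).mem_toFinset.mp i.2).1
  let E : IntermediateField ℚ Qbar := ⨆ i : T, i.1
  haveI : FiniteDimensional ℚ E := IntermediateField.finiteDimensional_iSup_of_finite
  refine ⟨IntermediateField.normalClosure ℚ E Qbar, inferInstance, normalClosure.normal ℚ E Qbar,
    fun F hF hd hFS => le_trans ?_ E.le_normalClosure⟩
  exact le_iSup_of_le (ι := T) (f := fun i => i.1)
    ⟨F, (finite_setOf_inertiaLE S d).mem_toFinset.mpr ⟨hF, hd, hFS⟩⟩ le_rfl

end Fermat.Agent.Galois
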